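import Mathlib

/-!
# KL-B application layer, node VALB
Basic facts on valuation subrings.
* `isIntegral_of_forall_valuationSubring`: integrality can be tested on valuation subrings.
-/

namespace Fermat.Agent.KLB

/-- An element lying in all the valuation subrings which contain the image of `O` is integral
over `O`. -/
theorem isIntegral_of_forall_valuationSubring {O E : Type*} [CommRing O] [Field E] [Algebra O E]
    {y : E} (h : ∀ V : ValuationSubring E, (∀ a : O, algebraMap O E a ∈ V) → y ∈ V) :
    IsIntegral O y := by
  have h1 : y ∈ (⨅ V : {V : ValuationSubring E // Set.range (algebraMap O E) ⊆ V.toSubring},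
      V.1.toSubring) := by
    rw [Subring.mem_iInf]
    rintro ⟨V, hV⟩
    exact h V fun a => hV ⟨a, rfl⟩
  rw [iInf_valuationSubring_superset] at h1
  have h2 : IsIntegral (Subring.closure (Set.range (algebraMap O E))) y := h1
  obtain ⟨p, hp, hpy⟩ := h2
  have hcl : Subring.closure (Set.range (algebraMap O E)) = (algebraMap O E).range := by
    rw [← RingHom.coe_range, Subring.closure_eq]
  -- every coefficient of `p` comes from `O`
  have hsurj : Function.Surjective ((algebraMap O E).codRestrict
      (Subring.closure (Set.range (algebraMap O E))) fun a => Subring.subset_closure ⟨a, rfl⟩) := by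
    rintro ⟨b, hb⟩
    rw [hcl] at hb
    obtain ⟨a, rfl⟩ := hb
    exact ⟨a, rfl⟩
  obtain ⟨q, hq, -, hqm⟩ := Polynomial.lifts_and_degree_eq_and_monic
    ((Polynomial.lifts_iff_coeff_lifts p).mpr fun n => hsurj _) hp
  refine ⟨q, hqm, ?_⟩
  rw [← hq, Polynomial.eval₂_map] at hpy
  exact hpy

/-- An integral element lies in all the valuation subrings which contain the image of `O`. -/
theorem mem_valuationSubring_of_isIntegral {O E : Type*} [CommRing O] [Field E] [Algebra O E]
    {y : E} (hy : IsIntegral O y) (V : ValuationSubring E) (hV : ∀ a : O, algebraMap O E a ∈ V) :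
    y ∈ V := by
  obtain ⟨p, hp, hpy⟩ := hy
  have h1 : IsIntegral V y := by
    refine ⟨p.map ((algebraMap O E).codRestrict V.toSubring hV), hp.map _, ?_⟩
    rw [Polynomial.eval₂_map]
    exact hpy
  obtain ⟨x, hx⟩ := (IsIntegrallyClosed.isIntegral_iff (R := V) (K := E)).mp h1
  rw [← hx]
  exact x.2

/-- `v(x) < 1` iff `x = 0` or `x⁻¹ ∉ V`. -/
theorem valuation_lt_one_iff' {E : Type*} [Field E] (V : ValuationSubring E) (x : E) :
    V.valuation x < 1 ↔ x = 0 ∨ x⁻¹ ∉ V := by
  rcases eq_or_ne x 0 with rfl | hx
  · simp
  · rw [← ValuationSubring.valuation_le_one_iff, map_inv₀, not_le]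
    simp only [hx, false_or]
    rw [one_lt_inv₀ (zero_lt_iff.mpr ((Valuation.ne_zero_iff _).mpr hx))]

end Fermat.Agent.KLB
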