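import Fermat.Agent.KLB.Abs.Poly
import Fermat.Agent.KLB.Abs.Purity
import Fermat.Agent.KLB.App.ValBasic
import Fermat.Agent.Lib.GoodRed.ChartBase

/-!
# KL-B application layer, node BRG
From the interface `GoodRed.GaussData` (helper160) to the vertical hypotheses of `fin_core`.
-/

namespace Fermat.Agent.KLB

open Polynomial Fermat.Agent.GoodRed

variable (K : Type*) {O E F : Type*} [CommRing O] [IsDomain O] [IsDiscreteValuationRing O]
  [Field K] [CharZero K] [Algebra O K] [IsFractionRing O K]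
  [Field E] [Algebra K E] [Algebra O E] [IsScalarTower O K E]
  [Field F] [Algebra E F] [FiniteDimensional E F]
  {ϖ : O} (hϖ : Irreducible ϖ) {x : E} (hx : Transcendental K x)
  (hgen : IntermediateField.adjoin K {x} = ⊤) {𝒟 : ValuationSubring F}
  (hG : GaussData O ϖ 𝒟 x)

include hx hgen in
/-- `x` is a coordinate of `E = K(x)` over `O`. -/
theorem isCoord_of_goodRed : IsCoord O x :=
  ⟨transcendental_iff_injective.mpr (GoodRed.aeval_injective_of_transcendental K x hx),
    isFractionRing_polyRing K x hx hgen⟩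

namespace BridgeGaussAux

include hϖ in
omit [IsDiscreteValuationRing O] in
/-- split off the power of `ϖ` from a nonzero polynomial. -/
theorem exists_eq_C_pow_mul [IsDiscreteValuationRing O] {P : O[X]} (hP : P ≠ 0) :
    ∃ (i : ℕ) (P0 : O[X]), P = C ϖ ^ i * P0 ∧ ¬ C ϖ ∣ P0 := by
  have hp : Prime (C ϖ : O[X]) := prime_C_iff.mpr hϖ.prime
  have hfin : FiniteMultiplicity (C ϖ) P := FiniteMultiplicity.of_prime_left hp hP
  obtain ⟨c, hc, hc'⟩ := hfin.exists_eq_pow_mul_and_not_dvd
  exact ⟨_, c, hc, hc'⟩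

include hG in
omit [IsDomain O] [IsDiscreteValuationRing O] [FiniteDimensional E F] in
theorem unif_ne_zero : algebraMap E F (algebraMap O E ϖ) ≠ 0 := by
  intro h
  apply hG.inv_unif_notMem
  rw [h, inv_zero]
  exact 𝒟.zero_mem

include hG in
omit [IsDomain O] [IsDiscreteValuationRing O] [FiniteDimensional E F] in
theorem aeval_mem (S : O[X]) : algebraMap E F (aeval x S) ∈ 𝒟 :=
  ChartBase.algebraMap_polyRing_mem ϖ x 𝒟 hG ⟨aeval x S, aeval_mem_adjoin_singleton O x⟩

include hG in
omit [IsDomain O] [IsDiscreteValuationRing O] [FiniteDimensional E F] in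
theorem inv_unif_pow_notMem (n : ℕ) : (algebraMap E F (algebraMap O E ϖ) ^ (n + 1))⁻¹ ∉ 𝒟 := by
  intro h
  apply hG.inv_unif_notMem
  have h0 := unif_ne_zero hG
  have : (algebraMap E F (algebraMap O E ϖ))⁻¹ =
      algebraMap E F (algebraMap O E ϖ) ^ n * (algebraMap E F (algebraMap O E ϖ) ^ (n + 1))⁻¹ := by
    rw [pow_succ]
    field_simp
  rw [this]
  exact 𝒟.mul_mem _ _ (pow_mem (hG.algebraMap_mem ϖ) n) h

end BridgeGaussAux

open BridgeGaussAux

include hG in
/-- The restriction of `𝒟` to `E = K(x)` is the Gauss ring. -/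
theorem isLocSub_gauss :
    IsLocSub (ndvd ((isCoord_of_goodRed K hx hgen).prime hϖ))
      (𝒟.toSubring.comap (algebraMap E F)) := by
  have hc := isCoord_of_goodRed (O := O) K hx hgen
  intro a
  rw [hc.exists_ndvd_iff hϖ]
  constructor
  · intro ha
    have ha' : algebraMap E F a ∈ 𝒟 := ha
    rcases eq_or_ne a 0 with rfl | ha0
    · exact ⟨1, 0, fun h => (prime_C_iff.mpr hϖ.prime).not_dvd_one h, by simp⟩
    obtain ⟨P, Q, hQ, rfl⟩ := hc.exists_div a
    have hQ0 : Q ≠ 0 := by rintro rfl; simp at hQ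
    have hP0 : P ≠ 0 := by rintro rfl; simp at ha0
    obtain ⟨i, P0, rfl, hP0'⟩ := exists_eq_C_pow_mul hϖ hP0
    obtain ⟨j, Q0, rfl, hQ0'⟩ := exists_eq_C_pow_mul hϖ hQ0
    have hπF := unif_ne_zero hG
    have hπ : algebraMap O E ϖ ≠ 0 := fun h => hπF (by rw [h, map_zero])
    simp only [map_mul, map_pow, aeval_C] at hQ ha' ha0 ⊢
    have hQx : aeval x Q0 ≠ 0 := right_ne_zero_of_mul hQ
    rcases le_or_gt j i with hji | hij
    · obtain ⟨d, rfl⟩ := Nat.exists_eq_add_of_le hji
      refine ⟨Q0, C ϖ ^ d * P0, hQ0', ?_⟩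
      simp only [map_mul, map_pow, aeval_C]
      rw [pow_add]
      field_simp
    · exfalso
      obtain ⟨n, rfl⟩ := Nat.exists_eq_add_of_lt hij
      apply inv_unif_pow_notMem hG n
      have hPu := hG.gauss P0 ((ChartBase.isPrim_iff ϖ P0).mpr hP0')
      have hPx : aeval x P0 ≠ 0 := by
        intro h0
        apply ha0
        rw [h0, mul_zero, zero_div]
      have hPxF : algebraMap E F (aeval x P0) ≠ 0 := by simpa using hPx
      have hQxF : algebraMap E F (aeval x Q0) ≠ 0 := by simpa using hQx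
      have e : (algebraMap E F (algebraMap O E ϖ) ^ (n + 1))⁻¹ =
          algebraMap E F (algebraMap O E ϖ ^ i * aeval x P0 /
            (algebraMap O E ϖ ^ (i + n + 1) * aeval x Q0)) *
          (algebraMap E F (aeval x Q0) * (algebraMap E F (aeval x P0))⁻¹) := by
        simp only [map_mul, map_pow, map_div₀]
        field_simp
        ring
      rw [e]
      exact 𝒟.mul_mem _ _ ha' (𝒟.mul_mem _ _ (aeval_mem hG Q0) hPu.2)
  · rintro ⟨D, S, hD, h⟩
    have hu := hG.gauss D ((ChartBase.isPrim_iff ϖ D).mpr hD)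
    have hD0 : aeval x D ≠ 0 := by
      intro h0
      have : D = 0 := aeval_injective_of_transcendental hc.trans (by rw [h0, map_zero])
      exact hD (this ▸ dvd_zero _)
    show algebraMap E F a ∈ 𝒟
    have : algebraMap E F a = (algebraMap E F (aeval x D))⁻¹ * algebraMap E F (aeval x S) := by
      rw [← h, map_mul, ← mul_assoc, inv_mul_cancel₀ (by simpa using hD0), one_mul]
    rw [this]
    exact 𝒟.mul_mem _ _ hu.2 (aeval_mem hG S)

include K hϖ hx hgen hG in
/-- `𝒟` is the integral closure of the Gauss ring. -/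
theorem isIntegral_gauss_iff (y : F) :
    IsIntegral (𝒟.toSubring.comap (algebraMap E F)) y ↔ y ∈ 𝒟 := by
  have hc := isCoord_of_goodRed (O := O) K hx hgen
  have hfr := hc.frac
  constructor
  · intro hy
    exact mem_valuationSubring_of_isIntegral hy 𝒟 (fun a => a.2)
  · intro hy
    obtain ⟨s, hs, hsy⟩ := hG.integral y hy
    rw [intO_iff_mem_chart] at hsy
    have hsy' : IsIntegral (Algebra.adjoin O {x}) (algebraMap E F (aeval x s) * y) := hsy
    rw [(isLocSub_gauss K hϖ hx hgen hG).isIntegral_iff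
      (PurityAux.ndvd_le_nonZeroDivisors _) y]
    refine ⟨polyEquiv hc.trans s, ?_, ?_⟩
    · intro hd
      exact ((ChartBase.isPrim_iff ϖ s).mp hs) ((hc.dvd_iff s).mp hd)
    · have : algebraMap (Algebra.adjoin O {x}) F (polyEquiv hc.trans s) =
          algebraMap E F (aeval x s) := by
        rw [← coe_polyEquiv hc.trans]
        rfl
      rw [this]
      exact hsy'

include K hϖ hx hgen hG in
/-- some `ϖ ^ k * y` lies in `𝒟`. -/
theorem BridgeGaussAux.exists_unif_pow_mul_mem (y : F) :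
    ∃ k : ℕ, algebraMap E F (algebraMap O E ϖ) ^ k * y ∈ 𝒟 := by
  have hc := isCoord_of_goodRed (O := O) K hx hgen
  have hfr := hc.frac
  have halg : IsAlgebraic (Algebra.adjoin O {x}) y :=
    (IsFractionRing.isAlgebraic_iff (Algebra.adjoin O {x}) E F).mpr
      (Algebra.IsAlgebraic.isAlgebraic y)
  obtain ⟨b, hb0, hb⟩ := halg.exists_integral_multiple
  obtain ⟨P, rfl⟩ := (polyEquiv hc.trans).surjective b
  have hP0 : P ≠ 0 := by rintro rfl; simp at hb0
  obtain ⟨k, P0, rfl, hP0'⟩ := exists_eq_C_pow_mul hϖ hP0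
  refine ⟨k, ?_⟩
  have h1 : polyEquiv hc.trans (C ϖ ^ k * P0) • y ∈ 𝒟 :=
    mem_of_mem_chart ϖ x 𝒟 hG hb
  have h2 : polyEquiv hc.trans (C ϖ ^ k * P0) • y =
      algebraMap E F (aeval x P0) * (algebraMap E F (algebraMap O E ϖ) ^ k * y) := by
    rw [Algebra.smul_def]
    have : algebraMap (Algebra.adjoin O {x}) F (polyEquiv hc.trans (C ϖ ^ k * P0)) =
        algebraMap E F (aeval x (C ϖ ^ k * P0)) := by
      rw [← coe_polyEquiv hc.trans]
      rfl
    rw [this]
    simp only [map_mul, map_pow, aeval_C]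
    ring
  rw [h2] at h1
  have hu := hG.gauss P0 ((ChartBase.isPrim_iff ϖ P0).mpr hP0')
  have hPx : algebraMap E F (aeval x P0) ≠ 0 := by
    intro h0
    have h3 : aeval x P0 = 0 := by simpa using h0
    have : P0 = 0 := aeval_injective_of_transcendental hc.trans (by rw [h3, map_zero])
    exact hP0' (this ▸ dvd_zero _)
  have := 𝒟.mul_mem _ _ hu.2 h1
  rwa [← mul_assoc, inv_mul_cancel₀ hPx, one_mul] at this

include K hϖ hx hgen hG in
/-- `F / E` is unramified at the Gauss valuation. -/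
theorem unr_gauss : Unr (𝒟.toSubring.comap (algebraMap E F)) E F := by
  have hc := isCoord_of_goodRed (O := O) K hx hgen
  have hfr := hc.frac
  have hic := hc.isIntegrallyClosed
  intro y hy
  rw [isIntegral_gauss_iff K hϖ hx hgen hG]
  have htr : ∀ z ∈ 𝒟, algebraMap E F (Algebra.trace E F (y * z)) ∈ 𝒟 := by
    intro z hz
    have h1 := hy z ((isIntegral_gauss_iff K hϖ hx hgen hG z).mpr hz)
    exact (isLocSub_gauss K hϖ hx hgen hG).mem_of_isIntegral
      (PurityAux.ndvd_le_nonZeroDivisors _) h1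
  classical
  have hex := exists_unif_pow_mul_mem K hϖ hx hgen hG y
  have hπF := unif_ne_zero hG
  rcases Nat.eq_zero_or_pos (Nat.find hex) with h0 | hpos
  · have := Nat.find_spec hex
    rwa [h0, pow_zero, one_mul] at this
  · exfalso
    obtain ⟨k, hk⟩ := Nat.exists_eq_succ_of_ne_zero hpos.ne'
    have hspec := Nat.find_spec hex
    rw [hk] at hspec
    have hmin : ¬ algebraMap E F (algebraMap O E ϖ) ^ k * y ∈ 𝒟 :=
      Nat.find_min hex (by omega)
    apply hmin
    obtain ⟨w, hw, hyw⟩ := hG.sep _ hspec (fun z hz => by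
      refine ⟨algebraMap E F (algebraMap O E ϖ) ^ k * algebraMap E F (Algebra.trace E F (y * z)),
        𝒟.mul_mem _ _ (pow_mem (hG.algebraMap_mem ϖ) k) (htr z hz), ?_⟩
      have e : algebraMap E F (algebraMap O E ϖ) ^ (k + 1) * y * z =
          (algebraMap O E ϖ ^ (k + 1)) • (y * z) := by
        rw [Algebra.smul_def, map_pow, mul_assoc]
      rw [e, map_smul, smul_eq_mul, map_mul, map_pow, pow_succ]
      ring)
    have : algebraMap E F (algebraMap O E ϖ) ^ k * y = w := by
      apply mul_left_cancel₀ hπF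
      rw [← hyw, pow_succ]
      ring
    rw [this]
    exact hw

end Fermat.Agent.KLB
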