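import Fermat.Agent.KLB.App.TameStep
import Fermat.Agent.KLB.Abs.Poly
import Fermat.Agent.Lib.GoodRed.PolyRing
import Fermat.Agent.S18.Descent.Places

/-!
# KL-B application layer, node BRH (statements by helper59, proofs by helper85)
From the interface `GoodRed.UnramOutside` (helper160) to the hypotheses of `fin_core` on the
generic fibre.  The ring of the chart is `K[x] = (Algebra.adjoin K {x}).toSubring`.
-/

set_option linter.style.haveILetI false
set_option linter.unusedSectionVars false

namespace Fermat.Agent.KLB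

open Polynomial Fermat.Agent.GoodRed

variable (K : Type*) {O E F : Type*} [CommRing O] [IsDomain O] [IsDiscreteValuationRing O]
  [Field K] [CharZero K] [Algebra O K] [IsFractionRing O K]
  [Field E] [Algebra K E] [Algebra O E] [IsScalarTower O K E]
  [Field F] [Algebra E F] [FiniteDimensional E F]
  {ϖ : O} (hϖ : Irreducible ϖ) {x : E} (hx : Transcendental K x)
  (hgen : IntermediateField.adjoin K {x} = ⊤)

include hϖ in
/-- every element of `K` is `o / ϖ ^ n` -/
theorem exists_pow_mul_eq_algebraMap (a : K) :
    ∃ (n : ℕ) (o : O), algebraMap O K ϖ ^ n * a = algebraMap O K o := by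
  haveI := isLocalization_away_unif K ϖ hϖ
  obtain ⟨⟨o, ⟨_, n, rfl⟩⟩, h⟩ := IsLocalization.surj (Submonoid.powers ϖ) a
  exact ⟨n, o, by rw [mul_comm, ← map_pow]; exact h⟩

omit [IsDomain O] [IsDiscreteValuationRing O] [CharZero K] [IsFractionRing O K] in
/-- `O[x] ⊆ K[x]` -/
theorem adjoin_le_adjoin_gen {a : E} (ha : a ∈ Algebra.adjoin O {x}) :
    a ∈ Algebra.adjoin K {x} := by
  induction ha using Algebra.adjoin_induction with
  | mem y hy => exact Algebra.subset_adjoin hy
  | algebraMap r =>
    rw [IsScalarTower.algebraMap_apply O K E]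
    exact Subalgebra.algebraMap_mem _ _
  | add y z _ _ hy hz => exact add_mem hy hz
  | mul y z _ _ hy hz => exact mul_mem hy hz

include hϖ in
/-- `K[x] = O[x][1/ϖ]`. -/
theorem isLocSub_gen :
    IsLocSub (Submonoid.powers (algebraMap O (Algebra.adjoin O {x}) ϖ))
      (Algebra.adjoin K {x}).toSubring := by
  have hϖE : algebraMap O E ϖ ≠ 0 := by
    rw [IsScalarTower.algebraMap_apply O K E]
    exact (_root_.map_ne_zero _).mpr
      ((map_ne_zero_iff _ (IsFractionRing.injective O K)).mpr hϖ.ne_zero)
  intro a
  constructor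
  · intro ha
    have ha' : a ∈ (aeval x : K[X] →ₐ[K] E).range := by
      rw [← Algebra.adjoin_singleton_eq_range_aeval]
      exact ha
    obtain ⟨p, rfl⟩ := ha'
    haveI := isLocalization_away_unif K ϖ hϖ
    obtain ⟨b, ⟨n, rfl⟩, h⟩ := IsLocalization.integerNormalization_spec (Submonoid.powers ϖ) p
    refine ⟨_, ⟨n, rfl⟩, toPoly O x (IsLocalization.integerNormalization (Submonoid.powers ϖ) p),
      ?_⟩
    have h2 : (ϖ ^ n) • p = C (algebraMap O K (ϖ ^ n)) * p := by
      rw [← algebraMap_smul K (ϖ ^ n) p, smul_eq_C_mul]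
    show algebraMap O E ϖ ^ n * _ = aeval x _
    rw [← aeval_map_algebraMap K, h, h2, map_mul, aeval_C, ← IsScalarTower.algebraMap_apply,
      map_pow]
    rfl
  · rintro ⟨_, ⟨n, rfl⟩, s, h⟩
    have h' : algebraMap O E ϖ ^ n * a = (s : E) := h
    have ha : a = algebraMap K E ((algebraMap O K ϖ ^ n)⁻¹) * (s : E) := by
      rw [← h', map_inv₀, map_pow, ← IsScalarTower.algebraMap_apply, ← mul_assoc,
        inv_mul_cancel₀ (pow_ne_zero _ hϖE), one_mul]
    rw [ha]
    exact mul_mem (Subalgebra.algebraMap_mem _ _) (adjoin_le_adjoin_gen K s.2)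

include hϖ in
/-- A valuation subring containing `O` and `ϖ⁻¹` contains `K`. -/
theorem containsConst_of_inv_mem (V : ValuationSubring F)
    (hO : ∀ a : O, algebraMap E F (algebraMap O E a) ∈ V)
    (hinv : (algebraMap E F (algebraMap O E ϖ))⁻¹ ∈ V) : ContainsConst K E V := by
  have hϖK : algebraMap O K ϖ ≠ 0 :=
    (map_ne_zero_iff _ (IsFractionRing.injective O K)).mpr hϖ.ne_zero
  intro a
  obtain ⟨n, o, h⟩ := exists_pow_mul_eq_algebraMap K hϖ a
  have ha : a = (algebraMap O K ϖ)⁻¹ ^ n * algebraMap O K o := by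
    rw [← h, ← mul_assoc, inv_pow, inv_mul_cancel₀ (pow_ne_zero _ hϖK), one_mul]
  rw [ha, map_mul, map_mul, map_pow, map_pow, map_inv₀, map_inv₀,
    ← IsScalarTower.algebraMap_apply O K E, ← IsScalarTower.algebraMap_apply O K E]
  exact mul_mem (pow_mem hinv n) (hO o)

include hgen in
/-- `E = Frac K[x]` -/
theorem isFractionRing_adjoin_gen : IsFractionRing (Algebra.adjoin K {x}) E := by
  refine IsFractionRing.of_field (Algebra.adjoin K {x}) E fun z => ?_
  have hz : z ∈ IntermediateField.adjoin K {x} := hgen ▸ IntermediateField.mem_top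
  obtain ⟨r, s, rfl⟩ := (IntermediateField.mem_adjoin_simple_iff K z).mp hz
  have hmem : ∀ p : K[X], aeval x p ∈ Algebra.adjoin K {x} := fun p => by
    rw [Algebra.adjoin_singleton_eq_range_aeval]
    exact ⟨p, rfl⟩
  exact ⟨⟨_, hmem r⟩, ⟨_, hmem s⟩, rfl⟩

/-- the trivial valuation subring is a principal ideal ring -/
theorem isPrincipalIdealRing_top_valuationSubring (F : Type*) [Field F] :
    IsPrincipalIdealRing (⊤ : ValuationSubring F) :=
  IsPrincipalIdealRing.of_surjective
    ((RingHom.id F).codRestrict (⊤ : ValuationSubring F) fun y => ValuationSubring.mem_top y)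
    (fun y => ⟨y.1, rfl⟩)

include hx hgen in
/-- Valuation subrings of `F` containing `K[x]` are principal, and localisations of the integral
closure of `K[x]`. -/
theorem valGood_gen (V : ValuationSubring F)
    (hV : ∀ a : (Algebra.adjoin K {x}).toSubring,
      algebraMap (Algebra.adjoin K {x}).toSubring F a ∈ V) :
    ValGood (Algebra.adjoin K {x}).toSubring V := by
  haveI := Fermat.Agent.S24.FF.isPrincipalIdealRing_adjoin x hx
  haveI := isFractionRing_adjoin_gen K hgen
  haveI : CharZero E := charZero_of_injective_algebraMap (algebraMap K E).injective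
  haveI : IsDedekindDomain (integralClosure (Algebra.adjoin K {x}) F) :=
    integralClosure.isDedekindDomain (Algebra.adjoin K {x}) E F
  haveI : IsFractionRing (integralClosure (Algebra.adjoin K {x}) F) F :=
    integralClosure.isFractionRing_of_finite_extension E F
  -- `V` contains the integral closure
  have hB : ∀ b : integralClosure (Algebra.adjoin K {x}) F,
      algebraMap (integralClosure (Algebra.adjoin K {x}) F) F b ∈ V := by
    intro b
    letI : Algebra (Algebra.adjoin K {x}) V :=
      ((algebraMap (Algebra.adjoin K {x}) F).codRestrict V.toSubring (fun a => hV a)).toAlgebra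
    letI : IsScalarTower (Algebra.adjoin K {x}) V F := IsScalarTower.of_algebraMap_eq fun f => rfl
    have hb : IsIntegral (Algebra.adjoin K {x}) (b : F) := b.2
    have hx : IsIntegral V (b : F) := hb.tower_top
    obtain ⟨y, hy⟩ := IsIntegrallyClosed.isIntegral_iff.mp hx
    show (b : F) ∈ V
    exact hy ▸ y.2
  by_cases hA : V = ⊤
  · subst hA
    refine ⟨isPrincipalIdealRing_top_valuationSubring F, fun a _ => ?_⟩
    obtain ⟨b, s, hs, rfl⟩ :=
      IsFractionRing.div_surjective (A := integralClosure (Algebra.adjoin K {x}) F) a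
    have hs0 : algebraMap (integralClosure (Algebra.adjoin K {x}) F) F s ≠ 0 := by
      simpa using nonZeroDivisors.ne_zero hs
    refine ⟨algebraMap _ F s, hs0, s.2, ValuationSubring.mem_top _, ?_⟩
    rw [mul_div_cancel₀ _ hs0]
    exact b.2
  · obtain ⟨w, hw⟩ := Fermat.Agent.S18.Descent.exists_heightOneSpectrum_eq'
      (B := integralClosure (Algebra.adjoin K {x}) F) V hB hA
    refine ⟨hw ▸ AlgebraicCurve.Place.isPrincipalIdealRing_valuationSubring w, fun a ha => ?_⟩
    rw [← hw, Valuation.mem_valuationSubring_iff] at ha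
    obtain ⟨n, d, hnd⟩ := w.exists_primeCompl_mul_eq_of_integer a ha
    have hd1 : w.valuation F (algebraMap _ F (d : integralClosure (Algebra.adjoin K {x}) F)) = 1 := by
      rw [IsDedekindDomain.HeightOneSpectrum.valuation_of_algebraMap]
      exact (w.intValuation_eq_one_iff_mem_primeCompl d).mpr d.2
    have hd0 : algebraMap _ F (d : integralClosure (Algebra.adjoin K {x}) F) ≠ 0 := by
      intro h0
      rw [h0, map_zero] at hd1
      exact zero_ne_one hd1
    refine ⟨algebraMap _ F (d : integralClosure (Algebra.adjoin K {x}) F), hd0, (d : integralClosure (Algebra.adjoin K {x}) F).2, ?_, ?_⟩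
    · rw [← hw, Valuation.mem_valuationSubring_iff, map_inv₀, hd1, inv_one]
    · rw [mul_comm, hnd]
      exact n.2

end Fermat.Agent.KLB
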