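import Fermat.Agent.KLB.Abs.Chart
import Fermat.Agent.Lib.GoodRed.PolyRing
import Fermat.Agent.Lib.GoodRed.TameDual
import Fermat.Agent.S18.Descent.Places

/-!
# KL-B application layer, node BRT (proofs: helper193)
From the interface `GoodRed.UnramOutside` (helper160) to `TameBound` over `K[x]`.
-/

namespace Fermat.Agent.KLB

open Polynomial Fermat.Agent.GoodRed

namespace BridgeTame

open IsDedekindDomain

section abstract

variable {A B L : Type*} [CommRing A] [CommRing B] [IsDedekindDomain B] [Field L]
  [Algebra A B] [Algebra B L] [IsFractionRing B L] [Algebra A L] [IsScalarTower A B L]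

/-- the valuation subring of a nonzero prime of a Dedekind domain -/
noncomputable def vs (w : HeightOneSpectrum B) : ValuationSubring L :=
  (w.valuation L).valuationSubring

theorem mem_vs (w : HeightOneSpectrum B) (y : L) : y ∈ vs (L := L) w ↔ w.valuation L y ≤ 1 :=
  Valuation.mem_valuationSubring_iff _ _

theorem algebraMap_mem_vs (w : HeightOneSpectrum B) (b : B) : algebraMap B L b ∈ vs (L := L) w :=
  (mem_vs w _).2 (w.valuation_le_one b)

theorem vs_ne_top (w : HeightOneSpectrum B) : vs (L := L) w ≠ ⊤ := by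
  intro h
  obtain ⟨π, hπ⟩ := w.valuation_exists_uniformizer L
  have h1 : π⁻¹ ∈ vs (L := L) w := h ▸ ValuationSubring.mem_top _
  rw [mem_vs, map_inv₀, hπ, ← WithZero.exp_neg, ← WithZero.exp_zero, WithZero.exp_le_exp] at h1
  omega

theorem inv_mem_vs (w : HeightOneSpectrum B) {b : B} (hb : b ∉ w.asIdeal) :
    (algebraMap B L b)⁻¹ ∈ vs (L := L) w := by
  rw [mem_vs, map_inv₀, w.valuation_eq_one_iff_notMem.2 hb, inv_one]

/-- if an element of `A` generates the maximal ideal of the valuation ring at `P`, then `P` is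
unramified over `A`. -/
theorem not_sq_dvd (w : HeightOneSpectrum B) (a : A)
    (ha : (algebraMap A L a)⁻¹ ∉ vs (L := L) w)
    (hdiv : ∀ y ∈ vs (L := L) w, y⁻¹ ∉ vs (L := L) w → y / algebraMap A L a ∈ vs (L := L) w) :
    ¬ w.asIdeal ^ 2 ∣ (w.asIdeal.under A).map (algebraMap A B) := by
  intro hdvd
  have ha0 : algebraMap A L a ≠ 0 := by
    intro h0
    apply ha
    rw [h0, inv_zero]
    exact zero_mem _
  have hv0 : w.valuation L (algebraMap A L a) ≠ 0 := (Valuation.ne_zero_iff _).2 ha0
  have hlt : w.valuation L (algebraMap A L a) < 1 := by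
    rw [mem_vs, map_inv₀, not_le] at ha
    exact (one_lt_inv₀ (zero_lt_iff.2 hv0)).1 ha
  rw [IsScalarTower.algebraMap_apply A B L, HeightOneSpectrum.valuation_lt_one_iff_mem] at hlt
  have hmem : algebraMap A B a ∈ w.asIdeal ^ 2 :=
    Ideal.le_of_dvd hdvd (Ideal.mem_map_of_mem _ hlt)
  have h2 : w.valuation L (algebraMap A L a) ≤ WithZero.exp (-((2 : ℕ) : ℤ)) := by
    rw [IsScalarTower.algebraMap_apply A B L, HeightOneSpectrum.valuation_of_algebraMap]
    exact (w.intValuation_le_pow_iff_mem _ 2).2 hmem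
  obtain ⟨π, hπ⟩ := w.valuation_exists_uniformizer L
  have hπ1 : π ∈ vs (L := L) w := by
    rw [mem_vs, hπ, ← WithZero.exp_zero, WithZero.exp_le_exp]
    omega
  have hπ2 : π⁻¹ ∉ vs (L := L) w := by
    rw [mem_vs, map_inv₀, hπ, ← WithZero.exp_neg, ← WithZero.exp_zero, WithZero.exp_le_exp]
    omega
  have h3 := hdiv π hπ1 hπ2
  rw [mem_vs, map_div₀, div_le_one₀ (zero_lt_iff.2 hv0), hπ] at h3
  have h4 := h3.trans h2
  rw [WithZero.exp_le_exp] at h4
  omega

end abstract

section concrete

variable (K : Type*) {E : Type*} [Field K] [Field E] [Algebra K E] (x : E)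

/-- the ring `K[x]` -/
abbrev Rx : Subring E := (Algebra.adjoin K {x}).toSubring

theorem aeval_mem_Rx (p : K[X]) : aeval x p ∈ Rx K x := by
  show aeval x p ∈ Algebra.adjoin K {x}
  rw [Algebra.adjoin_singleton_eq_range_aeval]
  exact ⟨p, rfl⟩

/-- `K[X] → K[x]` -/
noncomputable def toRx : K[X] →+* Rx K x :=
  ((aeval x : K[X] →ₐ[K] E) : K[X] →+* E).codRestrict (Rx K x) (aeval_mem_Rx K x)

theorem coe_toRx (p : K[X]) : ((toRx K x p : Rx K x) : E) = aeval x p := rfl

theorem toRx_surjective : Function.Surjective (toRx K x) := by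
  rintro ⟨y, hy⟩
  have hy' : y ∈ Algebra.adjoin K {x} := hy
  rw [Algebra.adjoin_singleton_eq_range_aeval] at hy'
  obtain ⟨p, rfl⟩ := hy'
  exact ⟨p, rfl⟩

theorem isPrincipalIdealRing_Rx : IsPrincipalIdealRing (Rx K x) :=
  IsPrincipalIdealRing.of_surjective (toRx K x) (toRx_surjective K x)

theorem isFractionRing_Rx (hgen : IntermediateField.adjoin K {x} = ⊤) :
    IsFractionRing (Rx K x) E := by
  refine IsFractionRing.of_field (Rx K x) E fun z => ?_
  have hz : z ∈ IntermediateField.adjoin K {x} := hgen ▸ IntermediateField.mem_top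
  obtain ⟨r, s, rfl⟩ := (IntermediateField.mem_adjoin_simple_iff K z).mp hz
  exact ⟨toRx K x r, toRx K x s, rfl⟩

theorem charZero_quotient [CharZero K] (p : Ideal (Rx K x)) (hp : p.IsMaximal) :
    CharZero (Rx K x ⧸ p) := by
  have : Nontrivial (Rx K x ⧸ p) := Ideal.Quotient.nontrivial_iff.2 hp.ne_top
  exact charZero_of_injective_ringHom
    (((Ideal.Quotient.mk p).comp ((toRx K x).comp (C : K →+* K[X]))).injective)

end concrete

end BridgeTame

variable (K : Type*) {E F : Type*} [Field K] [CharZero K]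
  [Field E] [Algebra K E] [Field F] [Algebra E F] [FiniteDimensional E F]
  {x : E} (hx : Transcendental K x) (hgen : IntermediateField.adjoin K {x} = ⊤)

open BridgeTame in
include hx hgen in
/-- The codifferent of `F / K(x)` over `K[x]` is bounded by `g`, if `F / K(x)` is unramified
outside `g`. -/
theorem tameBound_gen (g : K[X]) (hg : g ≠ 0) (hU : UnramOutside K F x g) :
    TameBound (Algebra.adjoin K {x}).toSubring E F (algebraMap E F (aeval x g))
      (Module.finrank E F - 1) := by
  have : CharZero E := charZero_of_injective_algebraMap (algebraMap K E).injective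
  have : IsPrincipalIdealRing (Rx K x) := isPrincipalIdealRing_Rx K x
  have : IsFractionRing (Rx K x) E := isFractionRing_Rx K x hgen
  let B := integralClosure (Rx K x) F
  have : IsDedekindDomain B := integralClosure.isDedekindDomain (Rx K x) E F
  have : IsFractionRing B F := integralClosure.isFractionRing_of_finite_extension E F
  intro y hy
  have hyD : y ∈ Submodule.traceDual (Rx K x) E (1 : Submodule B F) := by
    rw [Submodule.mem_traceDual]
    intro z hz
    obtain ⟨b, rfl⟩ := Submodule.mem_one.1 hz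
    have h1 := hy (algebraMap B F b) b.2
    exact IsIntegrallyClosed.isIntegral_iff.1 h1
  have hg0 : toRx K x g ≠ 0 := by
    intro h0
    have h1 : aeval x g = 0 := congrArg Subtype.val h0
    exact hg ((transcendental_iff.1 hx) g h1)
  have hunr : ∀ P : Ideal B, P.IsPrime → P ≠ ⊥ → algebraMap (Rx K x) B (toRx K x g) ∉ P →
      ¬ P ^ 2 ∣ (P.under (Rx K x)).map (algebraMap (Rx K x) B) := by
    intro P hP hP0 hgP
    let w : IsDedekindDomain.HeightOneSpectrum B := ⟨P, hP, hP0⟩
    have e : ∀ a : Rx K x, algebraMap B F (algebraMap (Rx K x) B a) = algebraMap E F (a : E) :=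
      fun a => rfl
    have e' : ∀ a : Rx K x, algebraMap (Rx K x) F a = algebraMap E F (a : E) :=
      fun a => rfl
    have hA : ∀ a : Rx K x, algebraMap E F (a : E) ∈ vs (L := F) w := fun a => by
      rw [← e]
      exact algebraMap_mem_vs w (algebraMap (Rx K x) B a)
    have hc : ContainsConst K E (vs (L := F) w) := fun a => by
      have h1 := hA (toRx K x (C a))
      rwa [coe_toRx, aeval_C] at h1
    have hxV : algebraMap E F x ∈ vs (L := F) w := by
      have h1 := hA (toRx K x X)
      rwa [coe_toRx, aeval_X] at h1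
    have hgV : (algebraMap E F (aeval x g))⁻¹ ∈ vs (L := F) w := by
      have h1 := inv_mem_vs (L := F) w hgP
      rwa [e, coe_toRx] at h1
    obtain ⟨p, -, hp2, hp3⟩ := hU (vs (L := F) w) hc (vs_ne_top w) hxV hgV
    refine not_sq_dvd (L := F) w (toRx K x p) ?_ ?_
    · rw [e', coe_toRx]
      exact hp2
    · rw [e', coe_toRx]
      exact hp3
  have key := isIntegral_pow_mul_pow_of_mem_traceDual (Rx K x) E (L := F) (B := B)
    (charZero_quotient K x) (toRx K x g) hg0 hunr y hyD
  have hpos : 0 < Module.finrank E F := Module.finrank_pos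
  rw [Nat.sub_add_cancel hpos, mul_comm]
  exact key

end Fermat.Agent.KLB
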