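import Mathlib

/-!
# KL-B application layer, node CONST
If a monic polynomial `g` over `F` stays irreducible over `F' ⊇ K'`, `K'` algebraically closed, and
the elements of `F` which become constants in `F'` are constants, then `F[X]/(g)` has no new
constants.
-/

namespace Fermat.Agent.KLB

open Polynomial

/-- `F[X]/(g)` has no constants besides those of `K`. -/
def NoNewConst (K : Type*) {F : Type*} [Field K] [Field F] [Algebra K F] (g : F[X]) : Prop :=
  ∀ y : AdjoinRoot g,
    ((algebraMap F (AdjoinRoot g)).comp (algebraMap K F)).IsIntegralElem y →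
      y ∈ ((algebraMap F (AdjoinRoot g)).comp (algebraMap K F)).range

theorem noNewConst_of_irreducible_map {K F K' F' : Type*} [Field K] [Field F] [Algebra K F]
    [Field K'] [IsAlgClosed K'] [Field F'] [Algebra K' F']
    (φ : K →+* K') (Φ : F →+* F')
    (hcomp : ∀ a : K, Φ (algebraMap K F a) = algebraMap K' F' (φ a))
    (hΦ : ∀ a : F, Φ a ∈ (algebraMap K' F').range → a ∈ (algebraMap K F).range)
    (g : F[X]) (hg : g.Monic) (hirr : Irreducible (g.map Φ)) : NoNewConst K g := by
  intro y hy
  set G : F'[X] := g.map Φ with hG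
  have : Fact (Irreducible G) := ⟨hirr⟩
  have hGm : G.Monic := hg.map Φ
  have hroot : g.eval₂ ((AdjoinRoot.of G).comp Φ) (AdjoinRoot.root G) = 0 := by
    rw [← Polynomial.eval₂_map, ← hG, AdjoinRoot.eval₂_root]
  let Ψ : AdjoinRoot g →+* AdjoinRoot G :=
    AdjoinRoot.lift ((AdjoinRoot.of G).comp Φ) (AdjoinRoot.root G) hroot
  have hΨmk : ∀ r : F[X], Ψ (AdjoinRoot.mk g r) = AdjoinRoot.mk G (r.map Φ) := by
    intro r
    rw [AdjoinRoot.lift_mk, ← Polynomial.eval₂_map, ← AdjoinRoot.aeval_eq]
    rfl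
  -- (1) `Ψ y` is a constant
  obtain ⟨P, hPm, hP⟩ := hy
  have hint : IsIntegral K' (Ψ y) := by
    refine ⟨P.map φ, hPm.map φ, ?_⟩
    rw [Polynomial.eval₂_map]
    have h1 := congrArg Ψ hP
    rw [Polynomial.hom_eval₂, map_zero] at h1
    have h2 : Ψ.comp ((algebraMap F (AdjoinRoot g)).comp (algebraMap K F)) =
        (algebraMap K' (AdjoinRoot G)).comp φ := by
      ext a
      show Ψ (AdjoinRoot.of g (algebraMap K F a)) = AdjoinRoot.of G (algebraMap K' F' (φ a))
      rw [AdjoinRoot.lift_of, ← hcomp]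
      rfl
    rw [← h2]
    exact h1
  obtain ⟨c, hc⟩ := minpoly.mem_range_of_degree_eq_one K' (Ψ y)
    (IsAlgClosed.degree_eq_one_of_irreducible K' (minpoly.irreducible hint))
  -- (2) a representative of small degree
  obtain ⟨r0, rfl⟩ := AdjoinRoot.mk_surjective y
  set r : F[X] := r0 %ₘ g with hr
  have hmk : AdjoinRoot.mk g r0 = AdjoinRoot.mk g r := by
    rw [AdjoinRoot.mk_eq_mk]
    refine ⟨r0 /ₘ g, ?_⟩
    have := Polynomial.modByMonic_add_div r0 g
    rw [← hr] at this
    linear_combination -this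
  have hdeg : r.degree < g.degree := Polynomial.degree_modByMonic_lt r0 hg
  have hdegG : G.degree = g.degree := Polynomial.degree_map g Φ
  have hpos : 0 < G.degree := Polynomial.degree_pos_of_irreducible hirr
  have hzero : AdjoinRoot.mk G (r.map Φ - C (algebraMap K' F' c)) = 0 := by
    rw [map_sub, ← hΨmk, ← hmk, ← hc, sub_eq_zero]
    rfl
  rw [AdjoinRoot.mk_eq_zero] at hzero
  have hlt : (r.map Φ - C (algebraMap K' F' c)).degree < G.degree := by
    refine lt_of_le_of_lt (Polynomial.degree_sub_le _ _) (max_lt ?_ ?_)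
    · rw [Polynomial.degree_map, hdegG]; exact hdeg
    · exact lt_of_le_of_lt Polynomial.degree_C_le hpos
  have heq : r.map Φ = C (algebraMap K' F' c) :=
    sub_eq_zero.mp (Polynomial.eq_zero_of_dvd_of_degree_lt hzero hlt)
  -- (3) coefficients
  have hrC : r = C (r.coeff 0) := by
    ext i
    rcases Nat.eq_zero_or_pos i with rfl | hi
    · simp
    · have h1 := congrArg (fun p => p.coeff i) heq
      simp only [Polynomial.coeff_map, Polynomial.coeff_C, hi.ne', if_false] at h1
      rw [Polynomial.coeff_C, if_neg hi.ne']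
      exact (map_eq_zero Φ).mp h1
  have h0 : Φ (r.coeff 0) = algebraMap K' F' c := by
    have h1 := congrArg (fun p => p.coeff 0) heq
    simpa using h1
  obtain ⟨a0, ha0⟩ := hΦ (r.coeff 0) ⟨c, h0.symm⟩
  refine ⟨a0, ?_⟩
  rw [hmk, hrC, ← ha0]
  rfl

end Fermat.Agent.KLB
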