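import Fermat.Agent.KLB.App.Const
import Fermat.Agent.S18.Descent.Main

/-!
# KL-B application layer, node DESC   (proofs: helper21)
Variant of the descent `S18.Descent.KL_of_KL₀` (helper248): the number field statement `KL₁`
receives in addition a monic irreducible factor `g` of `X ^ n - P/Q` such that `F[X]/(g)` has no
new constants, and concludes that `P/Q` is an `n`-th power.
-/

set_option autoImplicit false
set_option linter.style.haveILetI false

noncomputable section

namespace Fermat.Agent.KLB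

open AlgebraicCurve ModularCurve Polynomial Fermat.Agent.S24.FF Fermat.Agent.S18.Descent

local notation "Qbar" => AlgebraicClosure ℚ

/-- The key lemma for a field of constants `K`, a valuation subring `A₀` of `K` and a subfield `F`
of `K((q))`, in the form proved by the route KL-B. -/
def KLGen₁ {K : Type*} [Field K] (A₀ : ValuationSubring K)
    (F : IntermediateField K (LaurentSeries K)) (n : ℕ) : Prop :=
  ∀ (P Q : LaurentSeries A₀) (hP : coeffMap A₀.subtype P ∈ F) (hQ : coeffMap A₀.subtype Q ∈ F),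
    coeffMap (IsLocalRing.residue A₀) P = coeffMap (IsLocalRing.residue A₀) Q →
    coeffMap (IsLocalRing.residue A₀) Q ≠ 0 →
    (∀ w : Place K F, (n : ℤ) ∣ w.ord ((⟨coeffMap A₀.subtype P, hP⟩ : F) /
        ⟨coeffMap A₀.subtype Q, hQ⟩)) →
    ∀ g : F[X], g.Monic → Irreducible g →
      g ∣ X ^ n - C ((⟨coeffMap A₀.subtype P, hP⟩ : F) / ⟨coeffMap A₀.subtype Q, hQ⟩) →
      NoNewConst K g →
      ∃ s : F, s ^ n = (⟨coeffMap A₀.subtype P, hP⟩ : F) / ⟨coeffMap A₀.subtype Q, hQ⟩

/-- An element of `F_{K₀}` which becomes constant over `ℚ̄` is constant. -/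
theorem mem_range_of_baseChangeMap_mem_range (F₀ : IntermediateField ℚ (LaurentSeries ℚ))
    (K₀ : IntermediateField ℚ Qbar) (a : laurentBaseChange K₀ F₀)
    (ha : baseChangeMap F₀ (algebraMap K₀ Qbar) a ∈
      (algebraMap Qbar (laurentBaseChange Qbar F₀)).range) :
    a ∈ (algebraMap K₀ (laurentBaseChange K₀ F₀)).range := by
  obtain ⟨c, hc⟩ := ha
  have hc' : algebraMap Qbar (LaurentSeries Qbar) c =
      coeffMap (algebraMap K₀ Qbar) (a : LaurentSeries K₀) := congrArg Subtype.val hc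
  refine ⟨(a : LaurentSeries K₀).coeff 0, ?_⟩
  apply Subtype.ext
  change algebraMap K₀ (LaurentSeries K₀) ((a : LaurentSeries K₀).coeff 0) = (a : LaurentSeries K₀)
  rw [algebraMap_laurentSeries_eq_single]
  ext i : 2
  rw [HahnSeries.coeff_single]
  split_ifs with hi
  · rw [hi]
  · have h1 := congrArg (fun z : LaurentSeries Qbar => z.coeff i) hc'
    simp only [algebraMap_laurentSeries_eq_single, HahnSeries.coeff_single, if_neg hi,
      coeffMap_coeff] at h1
    exact ((map_eq_zero_iff (algebraMap K₀ Qbar) (algebraMap K₀ Qbar).injective).mp h1.symm).symm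

/-- **Descent**, general form. -/
theorem KL_of_KLGen₁' (F₀ : IntermediateField ℚ (LaurentSeries ℚ))
    [IsFF1 Qbar (laurentBaseChange Qbar F₀)] (A : ValuationSubring Qbar) (n : ℕ) (hn : n ≠ 0)
    (K : IntermediateField ℚ Qbar) [FiniteDimensional ℚ K]
    (h : ∀ K₀ : IntermediateField ℚ Qbar, FiniteDimensional ℚ K₀ → K ≤ K₀ →
      KLGen₁ (restrict A K₀) (laurentBaseChange K₀ F₀) n)
    (P Q : LaurentSeries A)
    (hP : coeffMap A.subtype P ∈ laurentBaseChange Qbar F₀)
    (hQ : coeffMap A.subtype Q ∈ laurentBaseChange Qbar F₀)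
    (hres : coeffMap (IsLocalRing.residue A) P = coeffMap (IsLocalRing.residue A) Q)
    (hres0 : coeffMap (IsLocalRing.residue A) Q ≠ 0)
    (hdvd : ∀ v : Place Qbar (laurentBaseChange Qbar F₀),
      (n : ℤ) ∣ v.ord ((⟨coeffMap A.subtype P, hP⟩ : laurentBaseChange Qbar F₀) /
        ⟨coeffMap A.subtype Q, hQ⟩)) :
    ∃ u : laurentBaseChange Qbar F₀,
      (⟨coeffMap A.subtype P, hP⟩ : laurentBaseChange Qbar F₀) / ⟨coeffMap A.subtype Q, hQ⟩
        = u ^ n := by
  classical
  haveI : Algebra.IsAlgebraic ℚ Qbar := AlgebraicClosure.isAlgebraic ℚ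
  set H : laurentBaseChange Qbar F₀ :=
    (⟨coeffMap A.subtype P, hP⟩ : laurentBaseChange Qbar F₀) / ⟨coeffMap A.subtype Q, hQ⟩ with hH
  -- an irreducible factor of `X ^ n - H`
  have hunit : ¬ IsUnit (X ^ n - C H : (laurentBaseChange Qbar F₀)[X]) := by
    intro hu
    have h1 := Polynomial.natDegree_eq_zero_of_isUnit hu
    rw [Polynomial.natDegree_X_pow_sub_C] at h1
    exact hn h1
  obtain ⟨G, hGm, hGirr, hGdvd⟩ := Polynomial.exists_monic_irreducible_factor _ hunit
  -- uniformisers at the support of `H`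
  have hfin : {v : Place Qbar (laurentBaseChange Qbar F₀) | v.ord H ≠ 0}.Finite :=
    finite_ord_ne_zero H
  choose t ht using fun v : Place Qbar (laurentBaseChange Qbar F₀) => exists_ord_eq_one v
  let S : Finset (LaurentSeries Qbar) :=
    insert (coeffMap A.subtype P) (insert (coeffMap A.subtype Q)
      ((hfin.toFinset.image fun v => ((t v : laurentBaseChange Qbar F₀) : LaurentSeries Qbar)) ∪
        ((Finset.range (G.natDegree + 1)).image fun i =>
          ((G.coeff i : laurentBaseChange Qbar F₀) : LaurentSeries Qbar))))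
  have hS : ∀ x ∈ S, x ∈ laurentBaseChange Qbar F₀ := by
    intro x hx
    simp only [S, Finset.mem_insert, Finset.mem_image, Finset.mem_union] at hx
    rcases hx with rfl | rfl | ⟨v, -, rfl⟩ | ⟨i, -, rfl⟩
    · exact hP
    · exact hQ
    · exact (t v).2
    · exact (G.coeff i).2
  obtain ⟨K₀, hK₀fin, hKK₀, -, hdef⟩ := exists_definedOver_finset S hS ∅ K
  obtain ⟨yP, hyP, hyP'⟩ := hdef (coeffMap A.subtype P) (by simp [S])
  obtain ⟨yQ, hyQ, hyQ'⟩ := hdef (coeffMap A.subtype Q) (by simp [S])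
  obtain ⟨P₀, hP₀, hP₀'⟩ := exists_series_restrict A K₀ P yP hyP'
  obtain ⟨Q₀, hQ₀, hQ₀'⟩ := exists_series_restrict A K₀ Q yQ hyQ'
  subst hP₀ hQ₀
  -- the maps
  let φ : K₀ →+* Qbar := algebraMap K₀ Qbar
  let Φ : laurentBaseChange K₀ F₀ →+* laurentBaseChange Qbar F₀ := baseChangeMap F₀ φ
  have hcomp : ∀ a : K₀, Φ (algebraMap K₀ (laurentBaseChange K₀ F₀) a) =
      algebraMap Qbar (laurentBaseChange Qbar F₀) (φ a) := fun a => baseChangeMap_algebraMap φ a
  have hint : φ.IsIntegral := by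
    intro c
    have h1 : IsIntegral ℚ c := (AlgebraicClosure.isAlgebraic ℚ).isAlgebraic c |>.isIntegral
    exact h1.tower_top (A := K₀)
  set h₀ : laurentBaseChange K₀ F₀ :=
    (⟨coeffMap (restrict A K₀).subtype P₀, hyP⟩ : laurentBaseChange K₀ F₀) /
      ⟨coeffMap (restrict A K₀).subtype Q₀, hyQ⟩ with hh₀
  have hΦh : Φ h₀ = H := by
    rw [hh₀, hH, map_div₀]
    congr 1
    · exact Subtype.ext hyP'
    · exact Subtype.ext hyQ'
  -- residues
  have hinj := coeffMap_injective (residueMap A K₀) (residueMap_injective A K₀)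
  have hresP : ∀ X : LaurentSeries (restrict A K₀),
      coeffMap (residueMap A K₀) (coeffMap (IsLocalRing.residue (restrict A K₀)) X) =
        coeffMap (IsLocalRing.residue A) (coeffMap (restrictHom A K₀) X) := by
    intro X
    rw [coeffMap_coeffMap, coeffMap_coeffMap, residueMap_comp_residue]
  have hres₀ : coeffMap (IsLocalRing.residue (restrict A K₀)) P₀ =
      coeffMap (IsLocalRing.residue (restrict A K₀)) Q₀ := by
    apply hinj
    rw [hresP, hresP, hP₀', hQ₀', hres]
  have hres0₀ : coeffMap (IsLocalRing.residue (restrict A K₀)) Q₀ ≠ 0 := by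
    intro h0
    apply hres0
    rw [← hQ₀', ← hresP, h0, map_zero]
  -- divisibility
  have hdvd₀ : ∀ w : Place K₀ (laurentBaseChange K₀ F₀), (n : ℤ) ∣ w.ord h₀ := by
    refine dvd_ord_of_forall_dvd_ord φ Φ hcomp hint h₀ n ?_ ?_
    · intro v hv
      rw [hΦh] at hv
      obtain ⟨y, hy, hy'⟩ := hdef ((t v : laurentBaseChange Qbar F₀) : LaurentSeries Qbar) (by
        simp only [S, Finset.mem_insert, Finset.mem_image, Finset.mem_union]
        exact Or.inr (Or.inr (Or.inl ⟨v, hfin.mem_toFinset.mpr hv, rfl⟩)))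
      refine ⟨⟨y, hy⟩, ?_⟩
      have : Φ ⟨y, hy⟩ = t v := Subtype.ext hy'
      rw [this, ht]
    · intro v
      rw [hΦh]
      exact hdvd v
  -- descent of the irreducible factor
  have hGlift : G ∈ Polynomial.lifts Φ := by
    rw [Polynomial.lifts_iff_coeff_lifts]
    intro i
    by_cases hi : i < G.natDegree + 1
    · obtain ⟨y, hy, hy'⟩ := hdef ((G.coeff i : laurentBaseChange Qbar F₀) : LaurentSeries Qbar) (by
        simp only [S, Finset.mem_insert, Finset.mem_image, Finset.mem_union]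
        exact Or.inr (Or.inr (Or.inr ⟨i, Finset.mem_range.mpr hi, rfl⟩)))
      exact ⟨⟨y, hy⟩, Subtype.ext hy'⟩
    · rw [Polynomial.coeff_eq_zero_of_natDegree_lt (by omega)]
      exact ⟨0, map_zero _⟩
  obtain ⟨g, hgG, -, hgm⟩ := Polynomial.lifts_and_natDegree_eq_and_monic hGlift hGm
  have hgirr : Irreducible g :=
    Polynomial.Monic.irreducible_of_irreducible_map Φ g hgm (by rw [hgG]; exact hGirr)
  have hgdvd : g ∣ X ^ n - C h₀ := by
    rw [← Polynomial.map_dvd_map Φ Φ.injective hgm, hgG]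
    simpa [hΦh] using hGdvd
  have hnnc : NoNewConst K₀ g :=
    noNewConst_of_irreducible_map φ Φ hcomp (mem_range_of_baseChangeMap_mem_range F₀ K₀) g hgm
      (by rw [hgG]; exact hGirr)
  obtain ⟨s, hs⟩ := h K₀ hK₀fin hKK₀ P₀ Q₀ hyP hyQ hres₀ hres0₀ hdvd₀ g hgm hgirr hgdvd hnnc
  exact ⟨Φ s, by rw [← map_pow, hs, hΦh]⟩

/-- **Descent** for the function field of `X₀(N)`. -/
theorem KL_of_KLGen₁ (N : ℕ) [IsFF1 Qbar (modularFunctionFieldBar N)] (A : ValuationSubring Qbar)
    (n : ℕ) (hn : n ≠ 0) (K : IntermediateField ℚ Qbar) [FiniteDimensional ℚ K]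
    (h : ∀ K₀ : IntermediateField ℚ Qbar, FiniteDimensional ℚ K₀ → K ≤ K₀ →
      KLGen₁ (restrict A K₀) (laurentBaseChange K₀ (modularFunctionFieldFull N)) n) :
    Fermat.Agent.GAL.KL N A n := by
  intro P Q hP hQ hres hres0 hdvd
  exact KL_of_KLGen₁' (modularFunctionFieldFull N) A n hn K h P Q hP hQ hres hres0 hdvd

end Fermat.Agent.KLB
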