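import Fermat.Agent.KLB.App.FinCore
import Fermat.Agent.KLB.App.BridgeGauss
import Fermat.Agent.KLB.App.BridgeGen
import Fermat.Agent.KLB.App.BridgeTame
import Fermat.Agent.Lib.GoodRed.ChartInv

/-!
# KL-B application layer: the key lemma at finite level, on the interface of `Lib/GoodRed/Defs`
Same hypotheses as `GoodRed.inj_main` (helper160), plus: `μ_m ⊆ O`, and the extension
`F' = F(w)`, `w ^ m = h`, has no new constants.
-/

set_option linter.style.haveILetI false

namespace Fermat.Agent.KLB

open Polynomial Fermat.Agent.GoodRed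

theorem inj_main_of_const (K : Type*) {O E F F' : Type*} [CommRing O] [IsDomain O]
    [IsDiscreteValuationRing O]
    [Field K] [CharZero K] [Algebra O K] [IsFractionRing O K]
    [Field E] [Algebra K E] [Algebra O E] [IsScalarTower O K E]
    [Field F] [Algebra E F] [FiniteDimensional E F]
    (ϖ : O) (hϖ : Irreducible ϖ) (x : E) (hx : Transcendental K x)
    (hgen : IntermediateField.adjoin K {x} = ⊤) (𝒟 : ValuationSubring F)
    (hG : GaussData O ϖ 𝒟 x) (g₀ g₁ : O[X])
    (hg₀ : Squarefree (g₀.map (IsLocalRing.residue O)))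
    (hg₁ : Squarefree (g₁.map (IsLocalRing.residue O)))
    (hU₀ : UnramOutside K F x (g₀.map (algebraMap O K)))
    (hU₁ : UnramOutside K F x⁻¹ (g₁.map (algebraMap O K)))
    (m : ℕ) (hm : IsUnit (m : O)) (ζ : O) (hζ : IsPrimitiveRoot ζ m)
    (h : F) (hM : DivisibleDiv K E m h)
    (h1 : ∃ z ∈ 𝒟, h = 1 + algebraMap E F (algebraMap O E ϖ) * z)
    [Field F'] [Algebra F F'] (w : F') (hw : w ^ m = algebraMap F F' h)
    (hw' : Algebra.adjoin F {w} = ⊤)
    (hconst : ∀ y : F',
      ((algebraMap F F').comp ((algebraMap E F).comp (algebraMap K E))).IsIntegralElem y →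
        y ∈ ((algebraMap F F').comp ((algebraMap E F).comp (algebraMap K E))).range) :
    ∃ s : F, s ^ m = h := by
  letI : Algebra O F := ((algebraMap E F).comp (algebraMap O E)).toAlgebra
  haveI : IsScalarTower O E F := IsScalarTower.of_algebraMap_eq fun _ => rfl
  letI : Algebra E F' := ((algebraMap F F').comp (algebraMap E F)).toAlgebra
  haveI : IsScalarTower E F F' := IsScalarTower.of_algebraMap_eq fun _ => rfl
  letI : Algebra O F' := ((algebraMap F F').comp (algebraMap O F)).toAlgebra
  haveI : IsScalarTower O F F' := IsScalarTower.of_algebraMap_eq fun _ => rfl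
  haveI : IsScalarTower O E F' := IsScalarTower.of_algebraMap_eq fun _ => rfl
  haveI : CharZero E := charZero_of_injective_algebraMap (algebraMap K E).injective
  have hm0 : m ≠ 0 := by
    rintro rfl
    simp at hm
  haveI : FiniteDimensional F F' := by
    have hwint : IsIntegral F w := by
      refine IsIntegral.of_pow (Nat.pos_of_ne_zero hm0) ?_
      rw [hw]
      exact isIntegral_algebraMap
    have := hwint.fg_adjoin_singleton
    rw [hw'] at this
    exact ⟨this⟩
  have hxi : Transcendental K x⁻¹ := fun h => hx (by simpa using h.inv)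
  have hgeni : IntermediateField.adjoin K {x⁻¹} = ⊤ := by
    rw [eq_top_iff, ← hgen, IntermediateField.adjoin_simple_le_iff]
    have := (IntermediateField.adjoin K {x⁻¹}).inv_mem
      (IntermediateField.mem_adjoin_simple_self K x⁻¹)
    rwa [inv_inv] at this
  have hc : IsCoord O x := isCoord_of_goodRed K hx hgen
  have hne : ∀ g : O[X], Squarefree (g.map (IsLocalRing.residue O)) →
      g.map (algebraMap O K) ≠ 0 := by
    intro g hg h0
    have : g = 0 := by
      apply Polynomial.map_injective _ (IsFractionRing.injective O K)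
      rw [h0, Polynomial.map_zero]
    rw [this, Polynomial.map_zero] at hg
    exact not_squarefree_zero hg
  have htb : ∀ (y : E) (g : O[X]), algebraMap (Algebra.adjoin O {y}) F (toPoly O y g) =
      algebraMap E F (aeval y (g.map (algebraMap O K))) := by
    intro y g
    rw [aeval_map_algebraMap]
    rfl
  refine fin_core (A := O) (L := E) (F := F) (E := F') hc hϖ ?_ (isLocSub_gauss K hϖ hx hgen hG)
    (unr_gauss K hϖ hx hgen hG) (isLocSub_gen K hϖ) (isLocSub_gen K hϖ)
    (κ₁ := toPoly O x g₀) (κ₂ := toPoly O x⁻¹ g₁)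
    (squarefree_mk_toPoly K ϖ hϖ x hx g₀ hg₀) (squarefree_mk_toPoly K ϖ hϖ x⁻¹ hxi g₁ hg₁)
    (Module.finrank E F - 1) ?_ ?_ (valGood_gen K hx hgen) (valGood_gen K hxi hgeni)
    hm hζ hw hw' 𝒟 rfl ?_ ?_
  · -- constants
    intro y hy
    have hcompO : ((algebraMap F F').comp ((algebraMap E F).comp (algebraMap K E))).comp
        (algebraMap O K) = algebraMap O F' := by
      ext a
      simp only [RingHom.comp_apply]
      rw [← IsScalarTower.algebraMap_apply O K E]
      rfl
    obtain ⟨p, hp, hpy⟩ := hy
    have hyK : ((algebraMap F F').comp ((algebraMap E F).comp (algebraMap K E))).IsIntegralElem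
        y := by
      refine ⟨p.map (algebraMap O K), hp.map _, ?_⟩
      rw [eval₂_map, hcompO]
      exact hpy
    obtain ⟨c, rfl⟩ := hconst y hyK
    have hcint : IsIntegral O c := by
      refine ⟨p, hp, ?_⟩
      apply ((algebraMap F F').comp ((algebraMap E F).comp (algebraMap K E))).injective
      rw [map_zero, hom_eval₂, hcompO]
      exact hpy
    obtain ⟨a, rfl⟩ := (IsIntegrallyClosed.isIntegral_iff (R := O) (K := K)).mp hcint
    exact ⟨a, (RingHom.congr_fun hcompO a).symm⟩
  · rw [htb]
    exact tameBound_gen K hx hgen _ (hne g₀ hg₀) hU₀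
  · rw [htb]
    exact tameBound_gen K hxi hgeni _ (hne g₁ hg₁) hU₁
  · -- `h ≡ 1`
    obtain ⟨z, hz, rfl⟩ := h1
    rw [add_sub_cancel_left, map_mul]
    have h2 : 𝒟.valuation z ≤ 1 := (ValuationSubring.valuation_le_one_iff _ _).mpr hz
    have h3 : 𝒟.valuation (algebraMap E F (algebraMap O E ϖ)) < 1 := by
      rw [valuation_lt_one_iff']
      exact Or.inr hG.inv_unif_notMem
    exact mul_lt_one_of_lt_of_le h3 h2
  · intro V hV hinv
    exact hM V (containsConst_of_inv_mem K hϖ V hV hinv)

end Fermat.Agent.KLB
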