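import Fermat.Agent.KLB.Abs.Chart
import Fermat.Agent.KLB.App.ValBasic

/-!
# KL-B application layer, node TSTEP (statement by helper59, proof by helper141)
The bound `TameBound` on the codifferent goes up along an extension `E / F` which is unramified
at every valuation subring of `F` containing `O`.
-/

namespace Fermat.Agent.KLB

/-- The valuation subring `V` of `F` is principal and is a localisation of the integral closure of
`O` in `F`. -/
def ValGood (O : Type*) {F : Type*} [CommRing O] [Field F] [Algebra O F]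
    (V : ValuationSubring F) : Prop :=
  IsPrincipalIdealRing V ∧
    ∀ a ∈ V, ∃ s : F, s ≠ 0 ∧ IsIntegral O s ∧ s⁻¹ ∈ V ∧ IsIntegral O (s * a)

namespace TameStepAux

open Polynomial

variable {O F : Type*} [CommRing O] [Field F] [Algebra O F]

/-- common denominators -/
theorem exists_common_denom {V : ValuationSubring F}
    (h : ∀ a ∈ V, ∃ s : F, s ≠ 0 ∧ IsIntegral O s ∧ s⁻¹ ∈ V ∧ IsIntegral O (s * a))
    (T : Finset F) (hT : ∀ a ∈ T, a ∈ V) :
    ∃ s : F, s ≠ 0 ∧ IsIntegral O s ∧ s⁻¹ ∈ V ∧ ∀ a ∈ T, IsIntegral O (s * a) := by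
  classical
  induction T using Finset.induction_on with
  | empty => exact ⟨1, one_ne_zero, isIntegral_one, by simp, by simp⟩
  | insert a T ha ih =>
    obtain ⟨s, hs0, hs, hsV, hsT⟩ := ih fun b hb => hT b (Finset.mem_insert_of_mem hb)
    obtain ⟨t, ht0, ht, htV, hta⟩ := h a (hT a (Finset.mem_insert_self a T))
    refine ⟨s * t, mul_ne_zero hs0 ht0, hs.mul ht, by
      rw [mul_inv]; exact V.mul_mem _ _ hsV htV, ?_⟩
    intro b hb
    rcases Finset.mem_insert.mp hb with rfl | hb
    · rw [mul_assoc]; exact hs.mul hta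
    · rw [mul_right_comm]; exact (hsT b hb).mul ht

/-- an element integral over `V` becomes integral over `O` after multiplication by a unit of `V`
which is integral over `O`. -/
theorem exists_mul_isIntegral {E : Type*} [Field E] [Algebra O E] [Algebra F E]
    [IsScalarTower O F E] {V : ValuationSubring F}
    (h : ∀ a ∈ V, ∃ s : F, s ≠ 0 ∧ IsIntegral O s ∧ s⁻¹ ∈ V ∧ IsIntegral O (s * a))
    {z : E} (hz : IsIntegral V z) :
    ∃ s : F, s ≠ 0 ∧ IsIntegral O s ∧ s⁻¹ ∈ V ∧ IsIntegral O (algebraMap F E s * z) := by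
  classical
  obtain ⟨p, hp, hpz⟩ := hz
  obtain ⟨s, hs0, hs, hsV, hsT⟩ := exists_common_denom h
    ((Finset.range (p.natDegree + 1)).image fun i => ((p.coeff i : V) : F)) (by
      intro a ha
      obtain ⟨i, -, rfl⟩ := Finset.mem_image.mp ha
      exact (p.coeff i).2)
  refine ⟨s, hs0, hs, hsV, ?_⟩
  set P : E[X] := p.map (algebraMap V E) with hPdef
  have hP : P.Monic := hp.map _
  have hPz : P.eval z = 0 := by rw [hPdef, eval_map]; exact hpz
  have hdeg : P.natDegree = p.natDegree := hp.natDegree_map _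
  refine IsIntegral.of_aeval_monic_of_isIntegral_coeff (p := P.scaleRoots (algebraMap F E s))
    ((monic_scaleRoots_iff _).2 hP) ?_ ?_ ?_
  · rw [natDegree_scaleRoots]
    intro h0
    rw [hP.natDegree_eq_zero.mp h0] at hPz
    simp at hPz
  · rw [scaleRoots_eval_mul, hPz, mul_zero]
    exact isIntegral_zero
  · intro i
    rw [coeff_scaleRoots]
    rcases lt_trichotomy i P.natDegree with hi | hi | hi
    · have h1 : IsIntegral O (s * ((p.coeff i : V) : F)) :=
        hsT _ (Finset.mem_image.mpr ⟨i, Finset.mem_range.mpr (by omega), rfl⟩)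
      have h2 : P.coeff i * algebraMap F E s ^ (P.natDegree - i) =
          algebraMap F E (s * ((p.coeff i : V) : F)) * algebraMap F E s ^ (P.natDegree - i - 1) := by
        obtain ⟨k, hk⟩ : ∃ k, P.natDegree - i = k + 1 := ⟨P.natDegree - i - 1, by omega⟩
        rw [hk, hPdef, coeff_map, map_mul, Nat.add_sub_cancel, pow_succ]
        have : algebraMap V E (p.coeff i) = algebraMap F E ((p.coeff i : V) : F) := rfl
        rw [this]
        ring
      rw [h2]
      exact h1.algebraMap.mul (hs.algebraMap.pow _)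
    · rw [hi, hP.coeff_natDegree, Nat.sub_self, pow_zero, mul_one]
      exact isIntegral_one
    · rw [coeff_eq_zero_of_natDegree_lt hi, zero_mul]
      exact isIntegral_zero

/-- a bounded subset of `F` has an element of maximal valuation -/
theorem exists_max_elt {V : ValuationSubring F} [IsPrincipalIdealRing V] (C : Set F)
    (h1 : (1 : F) ∈ C) {b : F} (hb0 : b ≠ 0) (hb : ∀ c ∈ C, b * c ∈ V) :
    ∃ c0 ∈ C, c0 ≠ 0 ∧ ∀ c ∈ C, c / c0 ∈ V := by
  classical
  have hwf : WellFoundedGT (Ideal V) := inferInstance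
  let e : C → V := fun c => ⟨b * c.1, hb c.1 c.2⟩
  let f : C → Ideal V := fun c => Ideal.span {e c}
  obtain ⟨M, ⟨c0, rfl⟩, hM⟩ := hwf.wf.has_min (Set.range f) ⟨f ⟨1, h1⟩, ⟨_, rfl⟩⟩
  have key : ∀ c : C, e c0 ∣ e c := by
    intro c
    rcases ValuationRing.dvd_total (e c0) (e c) with h | h
    · exact h
    · have hle : f c0 ≤ f c := Ideal.span_singleton_le_span_singleton.mpr h
      have hnlt : ¬ f c0 < f c := hM (f c) ⟨c, rfl⟩
      have heq : f c ≤ f c0 := by
        by_contra hcon
        exact hnlt (lt_of_le_not_ge hle hcon)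
      exact Ideal.span_singleton_le_span_singleton.mp heq
  have key' : ∀ c : C, ∃ x ∈ V, c.1 = c0.1 * x := by
    intro c
    obtain ⟨x, hx⟩ := key c
    refine ⟨x.1, x.2, ?_⟩
    have h2 : b * c.1 = b * c0.1 * x.1 := congrArg Subtype.val hx
    rw [mul_assoc] at h2
    exact mul_left_cancel₀ hb0 h2
  have hc0 : c0.1 ≠ 0 := by
    intro h0
    obtain ⟨x, -, hx⟩ := key' ⟨1, h1⟩
    rw [h0, zero_mul] at hx
    exact one_ne_zero hx
  refine ⟨c0.1, c0.2, hc0, fun c hc => ?_⟩
  obtain ⟨x, hxV, hx⟩ := key' ⟨c, hc⟩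
  have : c / c0.1 = x := by
    rw [show c = c0.1 * x from hx]
    field_simp
  rw [this]
  exact hxV

end TameStepAux

open TameStepAux in
theorem tameBound_step {O L F E : Type*} [CommRing O] [Field L] [Field F] [Field E]
    [Algebra O L] [Algebra O F] [Algebra O E] [Algebra L F] [Algebra F E] [Algebra L E]
    [IsScalarTower O L F] [IsScalarTower O F E] [IsScalarTower L F E]
    [FiniteDimensional L F] [FiniteDimensional F E]
    {κ : F} (hκ0 : κ ≠ 0) (hκ : IsIntegral O κ) {N : ℕ} (hF : TameBound O L F κ N)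
    (hV : ∀ V : ValuationSubring F, (∀ a : O, algebraMap O F a ∈ V) →
      ValGood O V ∧ Unr V F E) :
    TameBound O L E (algebraMap F E κ) N := by
  intro y hy
  refine isIntegral_of_forall_valuationSubring fun V' hV' => ?_
  set V : ValuationSubring F := V'.comap (algebraMap F E) with hVdef
  have hOV : ∀ a : O, algebraMap O F a ∈ V := fun a => by
    show algebraMap F E (algebraMap O F a) ∈ V'
    rw [← IsScalarTower.algebraMap_apply]
    exact hV' a
  obtain ⟨⟨hpir, hloc⟩, hunr⟩ := hV V hOV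
  let C : Set F := {c | ∀ z : F, IsIntegral O z → IsIntegral O (Algebra.trace L F (c * z))}
  have S1 : ∀ z : E, IsIntegral O z → Algebra.trace F E (y * z) ∈ C := by
    intro z hz z1 hz1
    have hz' : IsIntegral O (z * algebraMap F E z1) := hz.mul hz1.algebraMap
    have := hy _ hz'
    rwa [← Algebra.trace_trace (S := F), ← mul_assoc, mul_comm (y * z), ← Algebra.smul_def,
      map_smul, smul_eq_mul, mul_comm] at this
  have h1C : (1 : F) ∈ C := fun z hz => by
    rw [one_mul]
    exact Algebra.isIntegral_trace hz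
  have hκV : κ ∈ V := mem_valuationSubring_of_isIntegral hκ V hOV
  have S2 : ∀ c ∈ C, κ ^ N * c ∈ V := by
    intro c hc
    have h1 : κ ^ N * c ^ (N + 1) ∈ V := mem_valuationSubring_of_isIntegral (hF c hc) V hOV
    have h2 : (κ ^ N * c) ^ (N + 1) ∈ V := by
      have : (κ ^ N * c) ^ (N + 1) = κ ^ (N * N) * (κ ^ N * c ^ (N + 1)) := by ring
      rw [this]
      exact V.mul_mem _ _ (pow_mem hκV _) h1
    by_contra hn
    have h3 : (κ ^ N * c)⁻¹ ∈ V := (V.mem_or_inv_mem _).resolve_left hn
    apply hn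
    have h0 : κ ^ N * c ≠ 0 := fun h => hn (h ▸ V.zero_mem)
    have : κ ^ N * c = (κ ^ N * c) ^ (N + 1) * ((κ ^ N * c)⁻¹) ^ N := by
      rw [pow_succ, inv_pow, mul_right_comm, mul_inv_cancel₀ (pow_ne_zero N h0), one_mul]
    rw [this]
    exact V.mul_mem _ _ h2 (pow_mem h3 _)
  obtain ⟨c0, hc0C, hc00, hc0⟩ := exists_max_elt C h1C (pow_ne_zero N hκ0) S2
  have hc0E : algebraMap F E c0 ≠ 0 := (map_ne_zero _).mpr hc00
  set y' : E := y / algebraMap F E c0 with hy'def
  have hy' : IsIntegral V y' := by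
    refine hunr y' fun z hz => ?_
    obtain ⟨s, hs0, hs, hsV, hsz⟩ := exists_mul_isIntegral hloc hz
    have hsE : algebraMap F E s ≠ 0 := (map_ne_zero _).mpr hs0
    have h1 : Algebra.trace F E (y * (algebraMap F E s * z)) ∈ C := S1 _ hsz
    have h2 : Algebra.trace F E (y' * z) =
        s⁻¹ * (Algebra.trace F E (y * (algebraMap F E s * z)) / c0) := by
      have h3 : y' * z = (s⁻¹ * c0⁻¹) • (y * (algebraMap F E s * z)) := by
        rw [Algebra.smul_def, map_mul, map_inv₀, map_inv₀, hy'def]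
        field_simp
      rw [h3, map_smul, smul_eq_mul]
      field_simp
    rw [h2]
    have h4 : s⁻¹ * (Algebra.trace F E (y * (algebraMap F E s * z)) / c0) ∈ V :=
      V.mul_mem _ _ hsV (hc0 _ h1)
    exact (isIntegral_algebraMap : IsIntegral V (algebraMap V F ⟨_, h4⟩))
  have hy'V : y' ∈ V' := mem_valuationSubring_of_isIntegral hy' V' (fun a => a.2)
  have h5 : algebraMap F E (κ ^ N * c0 ^ (N + 1)) ∈ V' :=
    mem_valuationSubring_of_isIntegral (hF c0 hc0C) V hOV
  have h6 : algebraMap F E κ ^ N * y ^ (N + 1) =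
      algebraMap F E (κ ^ N * c0 ^ (N + 1)) * y' ^ (N + 1) := by
    rw [map_mul, map_pow, map_pow, hy'def, div_pow]
    field_simp
  rw [h6]
  exact V'.mul_mem _ _ h5 (pow_mem hy'V _)

end Fermat.Agent.KLB
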