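import Fermat.Agent.KLB.Kum.Main
import Fermat.Agent.KLB.App.TameStep

/-!
# KL-B application layer, node FIN: the key lemma at finite level, abstract form
`kummer_main` (helper63) + `tameBound_step`: the hypotheses on the generic fibre only concern `F`.
-/

namespace Fermat.Agent.KLB

variable {A L F E : Type*} [CommRing A] [IsDomain A] [IsDiscreteValuationRing A]
  [Field L] [Field F] [Field E] [CharZero L]
  [Algebra A L] [Algebra L F] [Algebra A F] [IsScalarTower A L F]
  [Algebra F E] [Algebra L E] [IsScalarTower L F E] [Algebra A E] [IsScalarTower A L E]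
  [IsScalarTower A F E] [FiniteDimensional L F] [FiniteDimensional F E]

/-- **The key lemma at finite level.**  `A` a DVR, `L = Frac(A)(x)`, `F / L` finite, unramified at
the Gauss valuation, with tamely bounded codifferent on the two charts of the generic fibre;
`u ∈ F` is congruent to `1` for an extension `VF` of the Gauss valuation, its divisor on the
generic fibre is divisible by `n`, and `E = F(w)`, `w ^ n = u`, has no new constants.
Then `u` is an `n`-th power in `F`. -/
theorem fin_core {x : L} (hx : IsCoord A x) {π : A} (hπ : Irreducible π)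
    (hconst : ∀ y : E, IsIntegral A y → y ∈ (algebraMap A E).range)
    {Og : Subring L} (hOg : IsLocSub (ndvd (hx.prime hπ)) Og) (hv : Unr Og L F)
    {OK₁ OK₂ : Subring L}
    (hOK₁ : IsLocSub (Submonoid.powers (algebraMap A (Algebra.adjoin A {x}) π)) OK₁)
    (hOK₂ : IsLocSub (Submonoid.powers (algebraMap A (Algebra.adjoin A {x⁻¹}) π)) OK₂)
    {κ₁ : Algebra.adjoin A {x}} {κ₂ : Algebra.adjoin A {x⁻¹}}
    (hκ₁ : Squarefree (Ideal.Quotient.mk (Ideal.span {algebraMap A (Algebra.adjoin A {x}) π}) κ₁))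
    (hκ₂ : Squarefree
      (Ideal.Quotient.mk (Ideal.span {algebraMap A (Algebra.adjoin A {x⁻¹}) π}) κ₂))
    (N : ℕ) (hg₁ : TameBound OK₁ L F (algebraMap _ F κ₁) N)
    (hg₂ : TameBound OK₂ L F (algebraMap _ F κ₂) N)
    (hval₁ : ∀ V : ValuationSubring F, (∀ a : OK₁, algebraMap OK₁ F a ∈ V) → ValGood OK₁ V)
    (hval₂ : ∀ V : ValuationSubring F, (∀ a : OK₂, algebraMap OK₂ F a ∈ V) → ValGood OK₂ V)
    {n : ℕ} (hn : IsUnit (n : A)) {ζ : A} (hζ : IsPrimitiveRoot ζ n)
    {u : F} {w : E} (hw : w ^ n = algebraMap F E u) (hgen : Algebra.adjoin F {w} = ⊤)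
    (VF : ValuationSubring F) (hVF : VF.toSubring.comap (algebraMap L F) = Og)
    (hu1 : VF.valuation (u - 1) < 1)
    (hdiv : ∀ V : ValuationSubring F, (∀ a : A, algebraMap A F a ∈ V) →
      (algebraMap A F π)⁻¹ ∈ V → ∃ t : F, t ≠ 0 ∧ u * t ^ n ∈ V ∧ (u * t ^ n)⁻¹ ∈ V) :
    ∃ s : F, s ^ n = u := by
  classical
  have : CharZero F := charZero_of_injective_algebraMap (algebraMap L F).injective
  have : FiniteDimensional L E := FiniteDimensional.trans L F E
  have := hx.frac
  have hn0 : n ≠ 0 := by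
    rintro rfl
    simp at hn
  have hnF : (n : F) ≠ 0 := Nat.cast_ne_zero.mpr hn0
  have hu0 : u ≠ 0 := by
    rintro rfl
    simp at hu1
  -- the inverse of `n`
  obtain ⟨n', hn'⟩ := hn.exists_right_inv
  have hninv : (n : F)⁻¹ = algebraMap A F n' := by
    have h := congrArg (algebraMap A F) hn'
    rw [map_mul, map_natCast, map_one] at h
    exact inv_eq_of_mul_eq_one_right h
  have hAL : ∀ (B : Subalgebra A L) (a : A), algebraMap A L a = algebraMap B L (algebraMap A B a) :=
    fun B a => rfl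
  have hmemF : ∀ (O : Subring L) (a : L), a ∈ O → IsIntegral O (algebraMap L F a) :=
    fun O a ha => isIntegral_algebraMap (R := O) (x := (⟨a, ha⟩ : O))
  -- horizontal part
  have hloc : ∀ V : ValuationSubring F, (∀ a : A, algebraMap A F a ∈ V) →
      (algebraMap A F π)⁻¹ ∈ V → Unr V F E := by
    intro V hAV hπV
    obtain ⟨t, ht0, ht1, ht2⟩ := hdiv V hAV hπV
    have hmemV : ∀ a : F, a ∈ V → IsIntegral V a :=
      fun a ha => isIntegral_algebraMap (R := V) (x := (⟨a, ha⟩ : V))
    refine Unr.of_kummer (w * algebraMap F E t) ?_ n hn0 (u * t ^ n) ?_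
      (mul_ne_zero hu0 (pow_ne_zero _ ht0)) (hmemV _ ht1) (hmemV _ ht2) hnF ?_
    · rw [eq_top_iff, ← hgen]
      apply Algebra.adjoin_le
      intro z hz
      rw [Set.mem_singleton_iff.mp hz]
      have h1 : w * algebraMap F E t ∈ Algebra.adjoin F {w * algebraMap F E t} :=
        Algebra.self_mem_adjoin_singleton F _
      have h2 : algebraMap F E t⁻¹ ∈ Algebra.adjoin F {w * algebraMap F E t} :=
        Subalgebra.algebraMap_mem _ _
      have h3 := mul_mem h1 h2
      rwa [mul_assoc, ← map_mul, mul_inv_cancel₀ ht0, map_one, mul_one] at h3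
    · rw [mul_pow, hw, map_mul, map_pow]
    · rw [hninv]
      exact hmemV _ (hAV n')
  have hstep : ∀ (y : L) (hy : IsCoord A y) (OK : Subring L)
      (_ : IsLocSub (Submonoid.powers (algebraMap A (Algebra.adjoin A {y}) π)) OK)
      (κ : Algebra.adjoin A {y})
      (_ : Squarefree (Ideal.Quotient.mk (Ideal.span {algebraMap A (Algebra.adjoin A {y}) π}) κ))
      (_ : TameBound OK L F (algebraMap _ F κ) N)
      (_ : ∀ V : ValuationSubring F, (∀ a : OK, algebraMap OK F a ∈ V) → ValGood OK V),
      TameBound OK L E (algebraMap _ E κ) N := by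
    intro y hy OK hOK κ hκ hg hval
    have := hy.frac
    have hκ0 : κ ≠ 0 := by
      rintro rfl
      have hprime := hy.prime hπ
      have : Nontrivial (Algebra.adjoin A {y} ⧸
          Ideal.span {algebraMap A (Algebra.adjoin A {y}) π}) :=
        Ideal.Quotient.nontrivial_iff.mpr (by
          rw [Ne, Ideal.span_singleton_eq_top]
          exact hprime.not_isUnit)
      rw [map_zero] at hκ
      exact not_squarefree_zero hκ
    have hκF : algebraMap (Algebra.adjoin A {y}) F κ ≠ 0 := by
      have h1 : (κ : L) ≠ 0 := fun h => hκ0 (Subtype.ext h)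
      exact (map_ne_zero (algebraMap L F)).mpr h1
    have := tameBound_step (O := OK) (L := L) (F := F) (E := E) hκF
      (hmemF OK _ (hOK.algebraMap_mem κ)) hg (fun V hV => ⟨hval V hV, hloc V ?_ ?_⟩)
    · have e : algebraMap (Algebra.adjoin A {y}) E κ =
          algebraMap F E (algebraMap (Algebra.adjoin A {y}) F κ) :=
        IsScalarTower.algebraMap_apply L F E (κ : L)
      rw [e]
      exact this
    · intro a
      rw [IsScalarTower.algebraMap_apply A L F]
      have h1 : algebraMap A L a ∈ OK := by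
        rw [hAL (Algebra.adjoin A {y})]; exact hOK.algebraMap_mem _
      exact hV ⟨_, h1⟩
    · have h1 := hOK.inv_mem (Submonoid.mem_powers (algebraMap A (Algebra.adjoin A {y}) π))
      have h2 := hV ⟨_, h1⟩
      rw [IsScalarTower.algebraMap_apply A L F, ← map_inv₀]
      exact h2
  have hgE₁ := hstep x hx OK₁ hOK₁ κ₁ hκ₁ hg₁ hval₁
  have hgE₂ := hstep x⁻¹ hx.inv OK₂ hOK₂ κ₂ hκ₂ hg₂ hval₂
  obtain ⟨s, hs⟩ := kummer_main hx hπ hconst hOg hv hOK₁ hOK₂ hκ₁ hκ₂ N hgE₁ hgE₂ n hn0 hn ζ hζ
    w hgen u hw VF hVF hu1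
  refine ⟨s, (algebraMap F E).injective ?_⟩
  rw [map_pow, hs, hw]

end Fermat.Agent.KLB
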