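import Fermat.Agent.KLB.Kum.Main
import Fermat.Agent.S18.Descent.Horizontal
import Fermat.Agent.KLB.App.FinCore
import Fermat.Agent.KLB.App.BridgeGen
import Fermat.Agent.KLB.App.BridgeTame
import Fermat.Agent.Lib.GoodRed.PolyRing

/-!
# KL-B application layer: the abstract key lemma in its final form

Same conclusion as `kummer_main`, but the horizontal hypotheses are those provided by
`Fermat/Agent/S18/Descent/Horizontal*.lean` for the field `F` itself (not for `E = F(W)`):
* `UnramOutsideVS K x g₁`, `UnramOutsideVS K x⁻¹ g₂` with `g₁`, `g₂` squarefree modulo `π`;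
* `DivisibleDivVS K n h`.
-/

namespace Fermat.Agent.KLB

open Polynomial Fermat.Agent.S18.Descent

variable {A K L F E : Type*} [CommRing A] [IsDomain A] [IsDiscreteValuationRing A]
  [Field K] [CharZero K] [Algebra A K] [IsFractionRing A K]
  [Field L] [Algebra K L] [Algebra A L] [IsScalarTower A K L]
  [Field F] [Algebra L F] [Algebra K F] [Algebra A F] [IsScalarTower K L F] [IsScalarTower A L F]
  [Field E] [Algebra F E] [Algebra L E] [Algebra A E] [IsScalarTower L F E] [IsScalarTower A L E]
  [IsScalarTower A F E] [FiniteDimensional L F] [FiniteDimensional F E]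

omit [IsDiscreteValuationRing A] [CharZero K] in
/-- a coordinate over `A` is transcendental over `K = Frac A` -/
theorem IsCoord.transcendental_frac (K : Type*) [Field K] [Algebra A K] [IsFractionRing A K]
    [Algebra K L] [IsScalarTower A K L] {x : L} (hx : IsCoord A x) : Transcendental K x :=
  fun h => hx.trans ((IsFractionRing.isAlgebraic_iff A K L).mpr h)

omit [IsDomain A] [IsDiscreteValuationRing A] [CharZero K] in
/-- a coordinate over `A` generates `L` over `K = Frac A` -/
theorem IsCoord.adjoin_frac_eq_top (K : Type*) [Field K] [Algebra A K]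
    [Algebra K L] [IsScalarTower A K L] {x : L} (hx : IsCoord A x) :
    IntermediateField.adjoin K {x} = ⊤ := by
  have := hx.frac
  rw [eq_top_iff]
  intro z _
  obtain ⟨a, b, _, rfl⟩ := IsFractionRing.div_surjective (A := Algebra.adjoin A {x}) z
  have hmem : ∀ c : Algebra.adjoin A {x},
      algebraMap (Algebra.adjoin A {x}) L c ∈ IntermediateField.adjoin K {x} := fun c =>
    IntermediateField.algebra_adjoin_le_adjoin K {x} (adjoin_le_adjoin_gen K c.2)
  exact div_mem (hmem a) (hmem b)

theorem kummer_final {x : L} (hx : IsCoord A x) {π : A} (hπ : Irreducible π)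
    (hconst : ∀ y : E, IsIntegral A y → y ∈ (algebraMap A E).range)
    {Og : Subring L} (hOg : IsLocSub (ndvd (hx.prime hπ)) Og) (hv : Unr Og L F)
    (g₁ g₂ : A[X]) (hg₁ : Squarefree (g₁.map (IsLocalRing.residue A)))
    (hg₂ : Squarefree (g₂.map (IsLocalRing.residue A)))
    (hU₁ : UnramOutsideVS K (algebraMap L F x) (g₁.map (algebraMap A K)))
    (hU₂ : UnramOutsideVS K (algebraMap L F x)⁻¹ (g₂.map (algebraMap A K)))
    (n : ℕ) (hn : IsUnit (n : A)) (ζ : A) (hζ : IsPrimitiveRoot ζ n)
    (W : E) (hgen : Algebra.adjoin F {W} = ⊤) (h : F) (hW : W ^ n = algebraMap F E h)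
    (hdiv : DivisibleDivVS K n h)
    (VF : ValuationSubring F) (hVF : VF.toSubring.comap (algebraMap L F) = Og)
    (hh : VF.valuation (h - 1) < 1) : W ∈ (algebraMap F E).range := by
  have : CharZero L := charZero_of_injective_algebraMap (algebraMap K L).injective
  have hn0 : n ≠ 0 := by
    rintro rfl
    simp at hn
  have hxK : Transcendental K x := hx.transcendental_frac K
  have hgenK : IntermediateField.adjoin K {x} = ⊤ := hx.adjoin_frac_eq_top K
  have hxi : Transcendental K x⁻¹ := hx.inv.transcendental_frac K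
  have hgeni : IntermediateField.adjoin K {x⁻¹} = ⊤ := hx.inv.adjoin_frac_eq_top K
  have hne : ∀ g : A[X], Squarefree (g.map (IsLocalRing.residue A)) →
      g.map (algebraMap A K) ≠ 0 := by
    intro g hg h0
    have : g = 0 := by
      apply Polynomial.map_injective _ (IsFractionRing.injective A K)
      rw [h0, Polynomial.map_zero]
    rw [this, Polynomial.map_zero] at hg
    exact not_squarefree_zero hg
  have htb : ∀ (y : L) (g : A[X]),
      algebraMap (Algebra.adjoin A {y}) F (GoodRed.toPoly A y g) =
        algebraMap L F (aeval y (g.map (algebraMap A K))) := by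
    intro y g
    rw [aeval_map_algebraMap]
    rfl
  rw [← map_inv₀] at hU₂
  obtain ⟨s, hs⟩ : ∃ s : F, s ^ n = h := by
    refine fin_core (A := A) (L := L) (F := F) (E := E) hx hπ hconst hOg hv
      (isLocSub_gen K hπ) (isLocSub_gen K hπ)
      (κ₁ := GoodRed.toPoly A x g₁) (κ₂ := GoodRed.toPoly A x⁻¹ g₂)
      (GoodRed.squarefree_mk_toPoly K π hπ x hxK g₁ hg₁)
      (GoodRed.squarefree_mk_toPoly K π hπ x⁻¹ hxi g₂ hg₂)
      (Module.finrank L F - 1) ?_ ?_ (valGood_gen K hxK hgenK) (valGood_gen K hxi hgeni)
      hn hζ hW hgen VF hVF hh ?_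
    · rw [htb]
      exact tameBound_gen K hxK hgenK _ (hne g₁ hg₁) (unramOutside_of_VS x _ hU₁)
    · rw [htb]
      exact tameBound_gen K hxi hgeni _ (hne g₂ hg₂) (unramOutside_of_VS x⁻¹ _ hU₂)
    · intro V hV hinv
      have hc : GoodRed.ContainsConst K L V :=
        containsConst_of_inv_mem K hπ V
          (fun a => by rw [← IsScalarTower.algebraMap_apply A L F]; exact hV a)
          (by rw [← IsScalarTower.algebraMap_apply A L F]; exact hinv)
      exact hdiv V fun a => by rw [IsScalarTower.algebraMap_apply K L F]; exact hc a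
  -- from `s ^ n = h` to `W ∈ F`
  have hh0 : h ≠ 0 := by
    rintro rfl
    simp at hh
  have hs0 : s ≠ 0 := by
    rintro rfl
    rw [zero_pow hn0] at hs
    exact hh0 hs.symm
  have hS0 : algebraMap F E s ≠ 0 := (map_ne_zero (algebraMap F E)).mpr hs0
  have hinjAE : Function.Injective (algebraMap A E) := by
    rw [IsScalarTower.algebraMap_eq A L E, IsScalarTower.algebraMap_eq A K L]
    exact (algebraMap L E).injective.comp
      ((algebraMap K L).injective.comp (IsFractionRing.injective A K))
  have hζE : IsPrimitiveRoot (algebraMap A E ζ) n := hζ.map_of_injective hinjAE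
  have : NeZero n := ⟨hn0⟩
  have h1 : (W / algebraMap F E s) ^ n = 1 := by
    rw [div_pow, hW, ← hs, map_pow, div_self (pow_ne_zero _ hS0)]
  obtain ⟨i, _, e⟩ := hζE.eq_pow_of_pow_eq_one h1
  refine ⟨algebraMap A F ζ ^ i * s, ?_⟩
  rw [map_mul, map_pow, ← IsScalarTower.algebraMap_apply A F E, e, div_mul_cancel₀ _ hS0]

end Fermat.Agent.KLB
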