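import Fermat.Agent.KLB.App.Fin
import Fermat.Agent.KLB.App.Descent
import Fermat.Agent.GAL.KLInputs.FromBase

/-!
# KL-B application layer: `KLGen₁` from the modular inputs
Same hypotheses as `GAL.KLInputs.klGen_of_base` (helper30), with `hinj : InjMain ..` replaced by a
primitive `n`-th root of unity in `A₀`.
-/

set_option autoImplicit false
set_option linter.unusedSectionVars false
set_option linter.style.haveILetI false

noncomputable section

namespace Fermat.Agent.KLB

open ModularCurve AlgebraicCurve Polynomial IntermediateField Fermat.Agent.GoodRed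
  Fermat.Agent.S18.Descent Fermat.Agent.S18.Vert Fermat.Agent.S24.FF

variable {K : Type*} [Field K] [CharZero K] (A₀ : ValuationSubring K)
  [IsDiscreteValuationRing A₀] (F : IntermediateField K (LaurentSeries K))

theorem klGen₁_of_base [IsFF1 K F] (hq : IsQuot A₀ F) {E : Type*} [Field E] [Algebra K E]
    [Algebra E F] [IsScalarTower K E F] [Algebra A₀ E] [IsScalarTower A₀ K E]
    [FiniteDimensional E F] (x : E) (hx : Transcendental K x)
    (hgen : IntermediateField.adjoin K {x} = ⊤) (ϖ : A₀) (hϖ : Irreducible ϖ)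
    (hG : GaussData A₀ ϖ (gaussVal A₀ F hq) x)
    (g₀ g₁ : A₀[X])
    (hg₀ : Squarefree (g₀.map (IsLocalRing.residue A₀)))
    (hg₁ : Squarefree (g₁.map (IsLocalRing.residue A₀)))
    (hU₀ : UnramOutsideVS K (algebraMap E F x) (g₀.map (algebraMap A₀ K)))
    (hU₁ : UnramOutsideVS K (algebraMap E F x)⁻¹ (g₁.map (algebraMap A₀ K)))
    (n : ℕ) (hn : IsUnit (n : A₀)) (ζ : A₀) (hζ : IsPrimitiveRoot ζ n) : KLGen₁ A₀ F n := by
  intro P Q hP hQ hres hres0 hdvd g hgm hgirr hgdvd hconst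
  set h : F := (⟨coeffMap A₀.subtype P, hP⟩ : F) / ⟨coeffMap A₀.subtype Q, hQ⟩ with hh
  have hQ0 : (⟨coeffMap A₀.subtype Q, hQ⟩ : F) ≠ 0 := fun h0 =>
    inc_ne_zero_of_red_ne_zero (A := A₀) hres0 (congrArg Subtype.val h0)
  have hP0 : (⟨coeffMap A₀.subtype P, hP⟩ : F) ≠ 0 := fun h0 =>
    inc_ne_zero_of_red_ne_zero (A := A₀) (Q := P) (by rw [red, hres]; exact hres0)
      (congrArg Subtype.val h0)
  have hh0 : h ≠ 0 := div_ne_zero hP0 hQ0
  obtain ⟨z, hz⟩ := div_sub_one_mem hq hϖ P Q hP hQ hres hres0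
  replace hz : h - 1 = algebraMap K F (ϖ : K) * (z : F) := hz
  have hπ : algebraMap E F (algebraMap A₀ E ϖ) = algebraMap K F (ϖ : K) := by
    rw [IsScalarTower.algebraMap_apply A₀ K E, ← IsScalarTower.algebraMap_apply K E F]
    rfl
  haveI : Fact (Irreducible g) := ⟨hgirr⟩
  refine inj_main_of_const K ϖ hϖ x hx hgen _ hG g₀ g₁ hg₀ hg₁ (unramOutside_of_VS x _ hU₀)
    (unramOutside_of_VS x⁻¹ _ (by rwa [map_inv₀])) n hn ζ hζ h
    (divisibleDiv_of_VS n h (divisibleDivVS_of_places n h hh0 hdvd))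
    ⟨z, z.2, by rw [hπ, ← hz]; ring⟩ (F' := AdjoinRoot g) (AdjoinRoot.root g) ?_
    AdjoinRoot.adjoinRoot_eq_top ?_
  · obtain ⟨r, hr⟩ := hgdvd
    have h1 := congrArg (aeval (AdjoinRoot.root g)) hr
    have h2 : aeval (AdjoinRoot.root g) g = 0 := by
      rw [AdjoinRoot.aeval_eq, AdjoinRoot.mk_self]
    rw [map_mul, h2, zero_mul, map_sub, map_pow, aeval_X, aeval_C, sub_eq_zero] at h1
    exact h1
  · intro y hy
    have e : (algebraMap F (AdjoinRoot g)).comp ((algebraMap E F).comp (algebraMap K E)) =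
        (algebraMap F (AdjoinRoot g)).comp (algebraMap K F) := by
      rw [IsScalarTower.algebraMap_eq K E F]
    rw [e] at hy ⊢
    exact hconst y hy

end Fermat.Agent.KLB

end
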