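import Fermat.Agent.KLB.App.TameStep
import Fermat.Agent.Lib.GoodRed.TameDual
import Fermat.Agent.Lib.GoodRed.PolyRing
import Fermat.Agent.S18.Descent.Places

/-!
# KL-B application layer, node T7' (helper63)
From the valuation-theoretic hypothesis `GoodRed.UnramOutside K F x g` (shape of helper160, provided
for the modular function fields by `S18/Descent/JLine.lean`) to the bound `TameBound` on the
codifferent of `F / K(x)` relative to `K[x]`, and the property `ValGood` of the valuation subrings
of `F` containing `K[x]`.
-/

set_option autoImplicit false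
set_option linter.unusedSectionVars false

namespace Fermat.Agent.KLB

open Polynomial IsDedekindDomain Fermat.Agent.GoodRed

/-- `TameBound` only depends on the notion of integrality. -/
theorem TameBound.congr {O O' L E : Type*} [CommRing O] [CommRing O'] [Field L] [Field E]
    [Algebra O L] [Algebra O E] [Algebra O' L] [Algebra O' E] [Algebra L E]
    (h₁ : ∀ a : L, IsIntegral O a ↔ IsIntegral O' a)
    (h₂ : ∀ y : E, IsIntegral O y ↔ IsIntegral O' y) {κ : E} {N : ℕ}
    (h : TameBound O L E κ N) : TameBound O' L E κ N := by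
  intro y hy
  exact (h₂ _).mp (h y fun z hz => (h₁ _).mpr (hy z ((h₂ z).mp hz)))

/-- `ValGood` only depends on the notion of integrality. -/
theorem ValGood.congr {O O' F : Type*} [CommRing O] [CommRing O'] [Field F]
    [Algebra O F] [Algebra O' F] (h₂ : ∀ y : F, IsIntegral O y ↔ IsIntegral O' y)
    {V : ValuationSubring F} (h : ValGood O V) : ValGood O' V := by
  refine ⟨h.1, fun a ha => ?_⟩
  obtain ⟨s, hs0, hs, hsV, hsa⟩ := h.2 a ha
  exact ⟨s, hs0, (h₂ _).mp hs, hsV, (h₂ _).mp hsa⟩

/-- Integrality only depends on the image of the base ring. -/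
theorem isIntegral_of_range_le {R S T : Type*} [CommRing R] [CommRing S] [CommRing T]
    [Algebra R T] [Algebra S T] (h : ∀ r : R, ∃ s : S, algebraMap S T s = algebraMap R T r)
    {y : T} (hy : IsIntegral R y) : IsIntegral S y := by
  have h1 : IsIntegral (algebraMap S T).range y := by
    obtain ⟨p, hp, hpy⟩ := hy
    let f : R →+* (algebraMap S T).range := (algebraMap R T).codRestrict _ fun r => by
      obtain ⟨s, hs⟩ := h r
      exact ⟨s, hs⟩
    refine ⟨p.map f, hp.map f, ?_⟩
    rw [eval₂_map]
    exact hpy
  obtain ⟨p, hp, hpy⟩ := h1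
  obtain ⟨q, hq, -, hqm⟩ := Polynomial.lifts_and_natDegree_eq_and_monic
    (f := (algebraMap S T).rangeRestrict) (p := p)
    ((Polynomial.mem_lifts p).2
      (Polynomial.map_surjective _ (algebraMap S T).rangeRestrict_surjective p)) hp
  refine ⟨q, hqm, ?_⟩
  rw [← hq, eval₂_map] at hpy
  exact hpy

section core

variable (K : Type*) {E F : Type*} [Field K] [CharZero K] [Field E] [Algebra K E]
  [Field F] [Algebra E F] [FiniteDimensional E F] (x : E)

theorem isPrincipalIdealRing_adjoin_of_transcendental (hx : Transcendental K x) :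
    IsPrincipalIdealRing (Algebra.adjoin K {x}) :=
  IsPrincipalIdealRing.of_surjective
    ((Polynomial.algEquivOfTranscendental K x hx : K[X] ≃ₐ[K] Algebra.adjoin K {x}) :
      K[X] →+* Algebra.adjoin K {x})
    (Polynomial.algEquivOfTranscendental K x hx).surjective

theorem isFractionRing_adjoin_of_top (hgen : IntermediateField.adjoin K {x} = ⊤) :
    IsFractionRing (Algebra.adjoin K {x}) E := by
  refine IsFractionRing.of_field (Algebra.adjoin K {x}) E fun z => ?_
  have hz : z ∈ IntermediateField.adjoin K {x} := hgen ▸ IntermediateField.mem_top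
  obtain ⟨r, s, rfl⟩ := (IntermediateField.mem_adjoin_simple_iff K z).mp hz
  exact ⟨⟨aeval x r, aeval_mem_adjoin_singleton K x⟩, ⟨aeval x s, aeval_mem_adjoin_singleton K x⟩,
    rfl⟩

/-- The valuation subring of a height one prime of the integral closure of `K[x]`: basic facts. -/
theorem unram_aux {B : Type*} [CommRing B] [IsDedekindDomain B] [Algebra B F] [IsFractionRing B F]
    (w : HeightOneSpectrum B) : (w.valuation F).valuationSubring ≠ ⊤ := by
  intro htop
  obtain ⟨π, hπ⟩ := w.valuation_exists_uniformizer F
  have hπ0 : π ≠ 0 := by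
    rintro rfl
    rw [map_zero] at hπ
    exact WithZero.exp_ne_zero hπ.symm
  have h1 : π⁻¹ ∈ (w.valuation F).valuationSubring := htop ▸ ValuationSubring.mem_top _
  rw [Valuation.mem_valuationSubring_iff, map_inv₀, hπ, ← WithZero.exp_neg, neg_neg,
    ← WithZero.exp_zero, WithZero.exp_le_exp] at h1
  omega

theorem tameBound_adjoin (hx : Transcendental K x) (hgen : IntermediateField.adjoin K {x} = ⊤)
    (g : K[X]) (hg : g ≠ 0) (hU : UnramOutside K F x g) :
    TameBound (Algebra.adjoin K {x}) E F (algebraMap E F (aeval x g)) (Module.finrank E F - 1) := by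
  have := isPrincipalIdealRing_adjoin_of_transcendental K x hx
  have := isFractionRing_adjoin_of_top K x hgen
  have : CharZero E := charZero_of_injective_algebraMap (algebraMap K E).injective
  have : IsDedekindDomain (integralClosure (Algebra.adjoin K {x}) F) :=
    integralClosure.isDedekindDomain (Algebra.adjoin K {x}) E F
  have : IsFractionRing (integralClosure (Algebra.adjoin K {x}) F) F :=
    integralClosure.isFractionRing_of_finite_extension E F
  intro y hy
  set R := Algebra.adjoin K {x} with hR
  set B := integralClosure R F with hB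
  let g' : R := ⟨aeval x g, aeval_mem_adjoin_singleton K x⟩
  have hg' : g' ≠ 0 := by
    intro h0
    have h1 : aeval x g = 0 := congrArg Subtype.val h0
    exact hg ((transcendental_iff.mp hx) g h1)
  have hn : 0 < Module.finrank E F := Module.finrank_pos
  have key := isIntegral_pow_mul_pow_of_mem_traceDual R E (L := F) (B := B) ?_ g' hg' ?_ y ?_
  · have e : Module.finrank E F - 1 + 1 = Module.finrank E F := by omega
    rw [e, mul_comm]
    exact key
  · intro p hp
    have : Nontrivial (R ⧸ p) := Ideal.Quotient.nontrivial_iff.mpr hp.ne_top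
    exact charZero_of_injective_algebraMap (algebraMap K (R ⧸ p)).injective
  · intro P hP hP0 hgP hdvd
    let w : HeightOneSpectrum B := ⟨P, hP, hP0⟩
    set V : ValuationSubring F := (w.valuation F).valuationSubring with hV
    have hBV : ∀ b : B, algebraMap B F b ∈ V := fun b => by
      rw [hV, Valuation.mem_valuationSubring_iff]
      exact w.valuation_le_one b
    have hRV : ∀ r : R, algebraMap E F (r : E) ∈ V := fun r => hBV (algebraMap R B r)
    have hgV : (algebraMap E F (aeval x g))⁻¹ ∈ V := by
      rw [hV, Valuation.mem_valuationSubring_iff, map_inv₀]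
      have h1 : w.valuation F (algebraMap B F (algebraMap R B g')) = 1 := by
        rw [w.valuation_of_algebraMap, HeightOneSpectrum.intValuation_eq_one_iff]
        exact hgP
      have h2 : algebraMap B F (algebraMap R B g') = algebraMap E F (aeval x g) := rfl
      rw [← h2, h1, inv_one]
    obtain ⟨p, hpV, hpinv, hpunif⟩ := hU V
      (fun a => hRV (algebraMap K R a)) (unram_aux w)
      (hRV ⟨x, Algebra.self_mem_adjoin_singleton K x⟩) hgV
    let p' : R := ⟨aeval x p, aeval_mem_adjoin_singleton K x⟩
    have hp2 : algebraMap B F (algebraMap R B p') = algebraMap E F (aeval x p) := rfl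
    have hp0 : algebraMap E F (aeval x p) ≠ 0 := by
      intro h0
      apply hpinv
      rw [h0, inv_zero]
      exact V.zero_mem
    -- `p(x)` lies in `P`
    have hlt : w.valuation F (algebraMap E F (aeval x p)) < 1 := by
      by_contra hcon
      apply hpinv
      rw [hV, Valuation.mem_valuationSubring_iff, map_inv₀]
      exact inv_le_one_of_one_le₀ (not_lt.mp hcon)
    have hpP : algebraMap R B p' ∈ P := by
      rw [← hp2, w.valuation_of_algebraMap, HeightOneSpectrum.intValuation_lt_one_iff_mem] at hlt
      exact hlt
    -- hence in `P ^ 2`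
    have hpP2 : algebraMap R B p' ∈ P ^ 2 :=
      Ideal.le_of_dvd hdvd (Ideal.mem_map_of_mem _ (show p' ∈ P.under R from hpP))
    have hle2 : w.valuation F (algebraMap E F (aeval x p)) ≤ WithZero.exp (-(2 : ℤ)) := by
      rw [← hp2, w.valuation_of_algebraMap]
      exact (w.intValuation_le_pow_iff_mem _ 2).mpr hpP2
    -- but it is a uniformiser
    obtain ⟨π, hπ⟩ := w.valuation_exists_uniformizer F
    have hπ0 : π ≠ 0 := by
      rintro rfl
      rw [map_zero] at hπ
      exact WithZero.exp_ne_zero hπ.symm
    have hπV : π ∈ V := by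
      rw [hV, Valuation.mem_valuationSubring_iff, hπ, ← WithZero.exp_zero, WithZero.exp_le_exp]
      omega
    have hπinv : π⁻¹ ∉ V := by
      rw [hV, Valuation.mem_valuationSubring_iff, map_inv₀, hπ, ← WithZero.exp_neg, neg_neg,
        ← WithZero.exp_zero, WithZero.exp_le_exp]
      omega
    have h3 := hpunif π hπV hπinv
    rw [hV, Valuation.mem_valuationSubring_iff, map_div₀, hπ] at h3
    have h4 : WithZero.exp (-1 : ℤ) ≤ w.valuation F (algebraMap E F (aeval x p)) := by
      have h5 : 0 < w.valuation F (algebraMap E F (aeval x p)) :=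
        zero_lt_iff.mpr ((Valuation.ne_zero_iff _).mpr hp0)
      rwa [div_le_one₀ h5] at h3
    have h6 := h4.trans hle2
    rw [WithZero.exp_le_exp] at h6
    omega
  · rw [Submodule.mem_traceDual]
    intro a ha
    obtain ⟨b, rfl⟩ := Submodule.mem_one.mp ha
    have h1 : IsIntegral R (Algebra.trace E F (y * algebraMap B F b)) := hy _ b.2
    exact IsIntegrallyClosed.isIntegral_iff.mp h1

theorem valGood_adjoin (hx : Transcendental K x) (hgen : IntermediateField.adjoin K {x} = ⊤)
    (V : ValuationSubring F) (hV : ∀ a : Algebra.adjoin K {x}, algebraMap _ F a ∈ V) :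
    ValGood (Algebra.adjoin K {x}) V := by
  have := isPrincipalIdealRing_adjoin_of_transcendental K x hx
  have := isFractionRing_adjoin_of_top K x hgen
  have : CharZero E := charZero_of_injective_algebraMap (algebraMap K E).injective
  have : IsDedekindDomain (integralClosure (Algebra.adjoin K {x}) F) :=
    integralClosure.isDedekindDomain (Algebra.adjoin K {x}) E F
  have : IsFractionRing (integralClosure (Algebra.adjoin K {x}) F) F :=
    integralClosure.isFractionRing_of_finite_extension E F
  set R := Algebra.adjoin K {x} with hR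
  set B := integralClosure R F with hB
  have hBV : ∀ b : B, algebraMap B F b ∈ V := fun b =>
    mem_valuationSubring_of_isIntegral b.2 V hV
  by_cases htop : V = ⊤
  · subst htop
    constructor
    · let f : F →+* (⊤ : ValuationSubring F) :=
        (RingHom.id F).codRestrict (⊤ : ValuationSubring F).toSubring
          fun a => ValuationSubring.mem_top a
      exact IsPrincipalIdealRing.of_surjective f fun a => ⟨a.1, rfl⟩
    · intro a _
      obtain ⟨n, d, hd, rfl⟩ := IsFractionRing.div_surjective (A := B) a
      have hd0 : algebraMap B F d ≠ 0 := by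
        simpa using nonZeroDivisors.ne_zero hd
      refine ⟨algebraMap B F d, hd0, d.2, ValuationSubring.mem_top _, ?_⟩
      rw [mul_div_cancel₀ _ hd0]
      exact n.2
  · obtain ⟨w, hw⟩ := Fermat.Agent.S18.Descent.exists_heightOneSpectrum_eq' (B := B) V hBV htop
    constructor
    · rw [← hw]
      exact AlgebraicCurve.Place.isPrincipalIdealRing_valuationSubring w
    · intro a ha
      rw [← hw, Valuation.mem_valuationSubring_iff] at ha
      obtain ⟨n, d, hnd⟩ := w.exists_primeCompl_mul_eq_of_integer a ha
      have hd1 : w.valuation F (algebraMap B F d) = 1 := by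
        rw [w.valuation_of_algebraMap, HeightOneSpectrum.intValuation_eq_one_iff]
        exact d.2
      have hd0 : algebraMap B F (d : B) ≠ 0 := by
        intro h0
        rw [h0, map_zero] at hd1
        exact zero_ne_one hd1
      refine ⟨algebraMap B F d, hd0, (d : B).2, ?_, ?_⟩
      · rw [← hw, Valuation.mem_valuationSubring_iff, map_inv₀, hd1, inv_one]
      · rw [mul_comm, hnd]
        exact n.2

end core

section OK

variable (K : Type*) {O E F : Type*} [CommRing O] [IsDomain O] [IsDiscreteValuationRing O]
  [Field K] [CharZero K] [Algebra O K] [IsFractionRing O K]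
  [Field E] [Algebra K E] [Algebra O E] [IsScalarTower O K E]
  [Field F] [Algebra E F] [FiniteDimensional E F]
  {ϖ : O} (hϖ : Irreducible ϖ) {x : E} {OK : Subring E}
  (hOK : IsLocSub (Submonoid.powers (algebraMap O (Algebra.adjoin O {x}) ϖ)) OK)

include hϖ hOK

/-- `O[x][1/ϖ] = K[x]`. -/
theorem mem_iff_mem_adjoin_of_isLocSub (a : E) : a ∈ OK ↔ a ∈ Algebra.adjoin K {x} := by
  have hϖE : algebraMap O E ϖ ≠ 0 := by
    rw [IsScalarTower.algebraMap_apply O K E]
    exact (_root_.map_ne_zero _).mpr
      ((map_ne_zero_iff _ (IsFractionRing.injective O K)).mpr hϖ.ne_zero)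
  rw [hOK a]
  constructor
  · rintro ⟨_, ⟨k, rfl⟩, s, hs⟩
    have h1 : algebraMap (Algebra.adjoin O {x}) E (algebraMap O (Algebra.adjoin O {x}) ϖ ^ k) =
        algebraMap K E (algebraMap O K ϖ ^ k) := by
      rw [map_pow, map_pow, ← IsScalarTower.algebraMap_apply O K E]
      rfl
    have h2 : (s : E) ∈ Algebra.adjoin K {x} := by
      have hs' : (s : E) ∈ (aeval x : O[X] →ₐ[O] E).range := by
        rw [← Algebra.adjoin_singleton_eq_range_aeval]
        exact s.2
      obtain ⟨p, hp⟩ := hs'
      have hp' : aeval x p = (s : E) := hp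
      rw [← hp', ← aeval_map_algebraMap K]
      exact aeval_mem_adjoin_singleton K x
    have h3 : algebraMap K E (algebraMap O K ϖ ^ k) ≠ 0 := by
      rw [map_pow, ← IsScalarTower.algebraMap_apply O K E]
      exact pow_ne_zero _ hϖE
    have h4 : a = algebraMap K E (algebraMap O K ϖ ^ k)⁻¹ * (s : E) := by
      rw [h1] at hs
      rw [map_inv₀]
      have hs'' : algebraMap K E (algebraMap O K ϖ ^ k) * a = (s : E) := hs
      rw [← hs'']
      field_simp
    rw [h4]
    exact mul_mem (Subalgebra.algebraMap_mem _ _) h2
  · intro ha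
    have ha' : a ∈ (aeval x : K[X] →ₐ[K] E).range := by
      rw [← Algebra.adjoin_singleton_eq_range_aeval]
      exact ha
    obtain ⟨p, rfl⟩ := ha'
    have : IsLocalization.Away ϖ K := isLocalization_away_unif K ϖ hϖ
    obtain ⟨b, ⟨k, rfl⟩, hq⟩ := IsLocalization.integerNormalization_spec (Submonoid.powers ϖ) p
    set q := IsLocalization.integerNormalization (Submonoid.powers ϖ) p with hqdef
    refine ⟨_, ⟨k, rfl⟩, toPoly O x q, ?_⟩
    show algebraMap (Algebra.adjoin O {x}) E (algebraMap O (Algebra.adjoin O {x}) ϖ ^ k) *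
      aeval x p = aeval x q
    rw [← aeval_map_algebraMap K x q, hq, ← algebraMap_smul K (ϖ ^ k) p, map_smul, Algebra.smul_def,
      map_pow, map_pow, map_pow, ← IsScalarTower.algebraMap_apply O K E]
    rfl

theorem isIntegral_iff_isIntegral_adjoin_of_isLocSub {T : Type*} [CommRing T] [Algebra E T]
    (y : T) : IsIntegral OK y ↔ IsIntegral (Algebra.adjoin K {x}) y := by
  constructor
  · refine isIntegral_of_range_le fun r => ?_
    exact ⟨⟨r.1, (mem_iff_mem_adjoin_of_isLocSub K hϖ hOK _).mp r.2⟩, rfl⟩
  · refine isIntegral_of_range_le fun r => ?_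
    exact ⟨⟨r.1, (mem_iff_mem_adjoin_of_isLocSub K hϖ hOK _).mpr r.2⟩, rfl⟩

/-- **Node T7'.**  If `F / K(x)` is unramified at the places of `F / K` where `x` is finite and
`g(x)` is a unit, then the codifferent of `F / K(x)` relative to `K[x] = O[x][1/ϖ]` is bounded by
`g(x)`. -/
theorem tameBound_of_unramOutside (hx : Transcendental K x)
    (hgen : IntermediateField.adjoin K {x} = ⊤) (g : O[X]) (hg : g ≠ 0)
    (hU : UnramOutside K F x (g.map (algebraMap O K))) :
    TameBound OK E F (algebraMap (Algebra.adjoin O {x}) F (toPoly O x g))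
      (Module.finrank E F - 1) := by
  have h := tameBound_adjoin K x hx hgen (g.map (algebraMap O K))
    ((Polynomial.map_ne_zero_iff (IsFractionRing.injective O K)).mpr hg) hU
  rw [aeval_map_algebraMap] at h
  exact TameBound.congr
    (fun a => (isIntegral_iff_isIntegral_adjoin_of_isLocSub K hϖ hOK a).symm)
    (fun a => (isIntegral_iff_isIntegral_adjoin_of_isLocSub K hϖ hOK a).symm) h

/-- Every valuation subring of `F` containing `K[x] = O[x][1/ϖ]` is principal, and a localisation
of the integral closure of `K[x]`. -/
theorem valGood_of_isLocSub (hx : Transcendental K x)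
    (hgen : IntermediateField.adjoin K {x} = ⊤) (V : ValuationSubring F)
    (hV : ∀ a : OK, algebraMap OK F a ∈ V) : ValGood OK V := by
  have h := valGood_adjoin K x hx hgen V fun a =>
    hV ⟨a.1, (mem_iff_mem_adjoin_of_isLocSub K hϖ hOK _).mpr a.2⟩
  exact ValGood.congr (fun a => (isIntegral_iff_isIntegral_adjoin_of_isLocSub K hϖ hOK a).symm) h

end OK

end Fermat.Agent.KLB
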