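import Fermat.Agent.KLB.App.Descent
import Fermat.Agent.GAL.KLInputs.Top

/-!
# KL-B application layer: top of the proof of the key lemma
`GAL.KLStatement` from
* `KLGen₁` over the number fields containing the `n`-th roots of unity, at the levels `M` prime to
  `ℓ` which carry a good base coordinate (`2 ∣ M` if `ℓ = 3`, `3 ∣ M` if `ℓ = 2`);
* the change of level `r N → N` (`GAL.KLInputs.LevelInput`).
Variant of `GAL/KLInputs/Top.lean` (helper30).
-/

set_option autoImplicit false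

noncomputable section

namespace Fermat.Agent.KLB

open ModularCurve AlgebraicCurve Fermat.Agent.S18.Descent Fermat.Agent.S24
  Fermat.Agent.GAL.KLInputs

local notation "Qbar" => AlgebraicClosure ℚ

/-- The number field input of the route KL-B. -/
def KL₁Input : Prop :=
  ∀ (M ℓ : ℕ) [NeZero M] [Fact ℓ.Prime], ¬ ℓ ∣ M → (ℓ = 3 → 2 ∣ M) → (ℓ = 2 → 3 ∣ M) →
    ∀ A : ValuationSubring Qbar, A.LiesOverPrime ℓ → ∀ n : ℕ, ¬ ℓ ∣ n →
      ∀ K₀ : IntermediateField ℚ Qbar, FiniteDimensional ℚ K₀ →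
        ∀ ζ : restrict A K₀, IsPrimitiveRoot ζ n →
          KLGen₁ (restrict A K₀) (laurentBaseChange K₀ (modularFunctionFieldFull M)) n

/-- A root of unity of `K₀` lies in every valuation subring. -/
theorem exists_primitiveRoot_restrict (A : ValuationSubring Qbar) (K₀ : IntermediateField ℚ Qbar)
    {n : ℕ} (hn : n ≠ 0) {ζ : Qbar} (hζ : IsPrimitiveRoot ζ n) (hmem : ζ ∈ K₀) :
    ∃ ζ₀ : restrict A K₀, IsPrimitiveRoot ζ₀ n := by
  have hA : ζ ∈ A := by
    rcases A.mem_or_inv_mem ζ with h | h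
    · exact h
    · have h1 : ζ = ζ⁻¹ ^ (n - 1) := by
        have h2 : ζ ^ n = 1 := hζ.pow_eq_one
        have h0 : ζ ≠ 0 := hζ.ne_zero hn
        obtain ⟨k, rfl⟩ := Nat.exists_eq_succ_of_ne_zero hn
        rw [Nat.succ_sub_one, inv_pow]
        exact eq_inv_of_mul_eq_one_left (by rw [← pow_succ']; exact h2)
      rw [h1]
      exact pow_mem h _
  refine ⟨⟨⟨ζ, hmem⟩, hA⟩, ?_⟩
  have hinj : Function.Injective
      ((algebraMap K₀ Qbar).comp (restrict A K₀).subtype : restrict A K₀ →+* Qbar) :=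
    (algebraMap K₀ Qbar).injective.comp Subtype.val_injective
  exact IsPrimitiveRoot.of_map_of_injective (f := ((algebraMap K₀ Qbar).comp
    (restrict A K₀).subtype : restrict A K₀ →+* Qbar)) (hf := hinj) hζ

/-- `KL` at the good levels. -/
theorem kl_of_KL₁Input (h₀ : KL₁Input) (M ℓ : ℕ) [NeZero M] [Fact ℓ.Prime] (hM : ¬ ℓ ∣ M)
    (h3 : ℓ = 3 → 2 ∣ M) (h2 : ℓ = 2 → 3 ∣ M) (A : ValuationSubring Qbar)
    (hA : A.LiesOverPrime ℓ) (n : ℕ) (hn : ¬ ℓ ∣ n) : GAL.KL M A n := by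
  have : FF.IsFF1 Qbar (modularFunctionFieldBar M) := Export.isFF1 M
  have hn0 : n ≠ 0 := fun h => hn (h ▸ dvd_zero ℓ)
  have : NeZero n := ⟨hn0⟩
  obtain ⟨ζ, hζ⟩ := HasEnoughRootsOfUnity.exists_primitiveRoot Qbar n
  have hint : IsIntegral ℚ ζ := (AlgebraicClosure.isAlgebraic ℚ).isAlgebraic ζ |>.isIntegral
  have : FiniteDimensional ℚ (IntermediateField.adjoin ℚ {ζ}) :=
    IntermediateField.adjoin.finiteDimensional hint
  refine KL_of_KLGen₁ M A n hn0 (IntermediateField.adjoin ℚ {ζ}) fun K₀ hK₀ hle => ?_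
  obtain ⟨ζ₀, hζ₀⟩ := exists_primitiveRoot_restrict A K₀ hn0 hζ
    (hle (IntermediateField.mem_adjoin_simple_self ℚ ζ))
  exact h₀ M ℓ hM h3 h2 A hA n hn K₀ hK₀ ζ₀ hζ₀

/-- **The key lemma**, from the two inputs. -/
theorem klStatement_of_inputs₁ (h₀ : KL₁Input) (hL : LevelInput) : GAL.KLStatement := by
  intro N _ ℓ _ hℓN A hA n hn
  have hℓ : ℓ.Prime := Fact.out
  by_cases h3 : ℓ = 3
  · subst h3
    by_cases h2N : 2 ∣ N
    · exact kl_of_KL₁Input h₀ N 3 hℓN (fun _ => h2N) (by norm_num) A hA n hn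
    · have : NeZero (2 * N) := ⟨Nat.mul_ne_zero two_ne_zero (NeZero.ne N)⟩
      refine hL Nat.prime_two h2N A n ?_ ?_
      · exact (Nat.Coprime.symm ((Nat.Prime.coprime_iff_not_dvd Nat.prime_three).mpr hn))
      · refine kl_of_KL₁Input h₀ (2 * N) 3 ?_ (fun _ => dvd_mul_right 2 N) (by norm_num) A hA n hn
        intro h
        rcases (Nat.Prime.dvd_mul Nat.prime_three).mp h with h | h
        · norm_num at h
        · exact hℓN h
  by_cases h2 : ℓ = 2
  · subst h2
    by_cases h3N : 3 ∣ N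
    · exact kl_of_KL₁Input h₀ N 2 hℓN (by norm_num) (fun _ => h3N) A hA n hn
    · have : NeZero (3 * N) := ⟨Nat.mul_ne_zero three_ne_zero (NeZero.ne N)⟩
      refine hL Nat.prime_three h3N A n ?_ ?_
      · have h1 : Nat.Coprime n 2 :=
          (Nat.Coprime.symm ((Nat.Prime.coprime_iff_not_dvd Nat.prime_two).mpr hn))
        have : (3 + 1 : ℕ) = 2 ^ 2 := by norm_num
        rw [this]
        exact Nat.Coprime.pow_right 2 h1
      · refine kl_of_KL₁Input h₀ (3 * N) 2 ?_ (by norm_num) (fun _ => dvd_mul_right 3 N) A hA n hn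
        intro h
        rcases (Nat.Prime.dvd_mul Nat.prime_two).mp h with h | h
        · norm_num at h
        · exact hℓN h
  · exact kl_of_KL₁Input h₀ N ℓ hℓN (fun h => absurd h h3) (fun h => absurd h h2) A hA n hn

end Fermat.Agent.KLB

end
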