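/-
KL-B application layer (insurance for the closing of KL), owner helper279.

Wiring: `KLGen₁ A₀ F n` for a field `K(j) ⊆ F ⊆ K(j, u)` and a base coordinate `x` in the Gauss ring,
from `Vert.gaussData`, the horizontal inputs and a primitive `n`-th root of unity in `A₀`.
Mirror of `GAL/KLInputs/Wire.lean` (helper30).
-/
import Fermat.Agent.KLB.App.FromBase
import Fermat.Agent.GAL.KLInputs.Arith
import Fermat.Agent.S18.Vert.GaussData

set_option autoImplicit false
set_option linter.unusedSectionVars false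
set_option linter.style.haveILetI false

noncomputable section

namespace Fermat.Agent.KLB

open ModularCurve AlgebraicCurve Polynomial IntermediateField Fermat.Agent.GoodRed
  Fermat.Agent.S18.Descent Fermat.Agent.S18.Vert Fermat.Agent.S24.FF Fermat.Agent.S28
  Fermat.Agent.GAL.KLInputs

variable {K : Type*} [Field K] [CharZero K] (A₀ : ValuationSubring K)
  [IsDiscreteValuationRing A₀] {N ℓ : ℕ} [Fact ℓ.Prime] (D : UData N ℓ)
  (hℓ : A₀.LiesOverPrime ℓ) (F : IntermediateField K (LaurentSeries K))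

set_option synthInstance.maxHeartbeats 400000 in
set_option maxHeartbeats 1000000 in
theorem klGen₁_of_gauss [IsFF1 K F] (hj : jqModC K ∈ F) (hF : F ≤ bigField A₀ D hℓ)
    (hq : IsQuot A₀ F) (x : gaussVal A₀ F hq)
    (hx : Transcendental (IsLocalRing.ResidueField A₀) (gaussRes hq x))
    (hxK : Transcendental K (x : F))
    (hjx : (⟨jqModC K, hj⟩ : F) ∈ K⟮(x : F)⟯)
    (g₀ g₁ : ℤ[X])
    (hg₀ : Squarefree (g₀.map (Int.castRingHom (IsLocalRing.ResidueField A₀))))
    (hg₁ : Squarefree (g₁.map (Int.castRingHom (IsLocalRing.ResidueField A₀))))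
    (hU₀ : UnramOutsideVS K (x : F) (g₀.map (Int.castRingHom K)))
    (hU₁ : UnramOutsideVS K (x : F)⁻¹ (g₁.map (Int.castRingHom K)))
    (n : ℕ) (hn : ¬ ℓ ∣ n) (ζ : A₀) (hζ : IsPrimitiveRoot ζ n) : KLGen₁ A₀ F n := by
  letI : Algebra A₀ K⟮(x : F)⟯ := ((algebraMap K K⟮(x : F)⟯).comp A₀.subtype).toAlgebra
  haveI : IsScalarTower A₀ K K⟮(x : F)⟯ := IsScalarTower.of_algebraMap_eq fun _ => rfl
  haveI : FiniteDimensional K⟮(x : F)⟯ F := IsFF1.finite _ hxK
  obtain ⟨ϖ, hϖ⟩ := IsDiscreteValuationRing.exists_irreducible A₀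
  have hgen : algebraMap K⟮(x : F)⟯ F (AdjoinSimple.gen K (x : F)) = (x : F) :=
    AdjoinSimple.algebraMap_gen K (x : F)
  have hmapK : ∀ g : ℤ[X], (g.map (Int.castRingHom A₀)).map (algebraMap A₀ K) =
      g.map (Int.castRingHom K) := fun g => by
    rw [Polynomial.map_map]
    congr 1
  have hmapk : ∀ g : ℤ[X], (g.map (Int.castRingHom A₀)).map (IsLocalRing.residue A₀) =
      g.map (Int.castRingHom (IsLocalRing.ResidueField A₀)) := fun g => by
    rw [Polynomial.map_map]
    congr 1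
  have hG : GaussData A₀ ϖ (gaussVal A₀ F hq) (AdjoinSimple.gen K (x : F)) := by
    refine gaussData hj hF hq (AdjoinSimple.gen K (x : F)) (by rw [hgen]; exact x.2) ?_
      ⟨_, hjx⟩ rfl (by rw [hgen]; exact hjx) hϖ
    convert hx using 2
    exact Subtype.ext hgen
  refine klGen₁_of_base A₀ F hq (AdjoinSimple.gen K (x : F)) (transcendental_gen hxK)
    (adjoin_gen_eq_top (x : F)) ϖ hϖ hG (g₀.map (Int.castRingHom A₀))
    (g₁.map (Int.castRingHom A₀)) (by rw [hmapk]; exact hg₀) (by rw [hmapk]; exact hg₁)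
    (by rw [hmapK, hgen]; exact hU₀) (by rw [hmapK, hgen]; exact hU₁) n
    (isUnit_natCast A₀ Fact.out hℓ n hn) ζ hζ

end Fermat.Agent.KLB

end
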